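import Fermat.Agent.PadicDescent.Descent
import Fermat.Agent.CurveDeRham.Multiplicative
import Mathlib.LinearAlgebra.LinearIndependent.Lemmas

/-!
# An eigenvector over an open subgroup gives one over the whole group

Averaging over the cosets, after multiplication by a suitable element of the fixed field of the
subgroup, keeps the image under `θ` nonzero because distinct embeddings are linearly independent.
-/

set_option autoImplicit false
set_option linter.unusedSectionVars false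

noncomputable section

open Matrix FA.TateSen FA.BDR FA.Sen FA.PadicHodge FA.PadicDescent

namespace FA.EDR

variable {p : ℕ} [hp : Fact p.Prime]

local notation "Cp" => ℂ_[p]
local notation "Ω" => PadicAlgCl p
local notation "G" => PadicAlgCl p ≃ₐ[ℚ_[p]] PadicAlgCl p

/-- The action on `B_dR⁺ ⊗ V` twisted by `χ⁻¹`. -/
def actP (ρ : G → Matrix (Fin 2) (Fin 2) ℚ_[p]) (σ : G) (y : Fin 2 → BPlus p) :
    Fin 2 → BPlus p :=
  qpHom p (((chi p σ : ℤ_[p]) : ℚ_[p]))⁻¹ • ((ρ σ).map (qpHom p) *ᵥ fun i => σ • y i)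

variable {ρ : (PadicAlgCl p ≃ₐ[ℚ_[p]] PadicAlgCl p) → Matrix (Fin 2) (Fin 2) ℚ_[p]}

theorem actP_add (σ : G) (x y : Fin 2 → BPlus p) :
    actP ρ σ (x + y) = actP ρ σ x + actP ρ σ y := by
  rw [actP, actP, actP, ← smul_add, ← Matrix.mulVec_add]
  congr 2
  funext i
  exact smul_add σ (x i) (y i)

theorem actP_smul (σ : G) (a : BPlus p) (y : Fin 2 → BPlus p) :
    actP ρ σ (a • y) = (σ • a) • actP ρ σ y := by
  have e : (fun i => σ • (a • y) i) = (σ • a) • fun i => σ • y i :=
    funext fun i => smul_mul' σ a (y i)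
  rw [actP, actP, e, Matrix.mulVec_smul, smul_comm]

theorem actP_sum (σ : G) {J : Type*} (s : Finset J) (v : J → Fin 2 → BPlus p) :
    actP ρ σ (∑ j ∈ s, v j) = ∑ j ∈ s, actP ρ σ (v j) :=
  map_sum (AddMonoidHom.mk' (actP ρ σ) (actP_add σ)) v s

theorem map_qpHom_smul (σ : G) (M : Matrix (Fin 2) (Fin 2) ℚ_[p]) (y : Fin 2 → BPlus p) :
    (fun i => σ • (M.map (qpHom p) *ᵥ y) i) = M.map (qpHom p) *ᵥ fun i => σ • y i := by
  funext i
  simp only [Matrix.mulVec, dotProduct, Matrix.map_apply, Finset.smul_sum, smul_mul', smul_qpHom]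

theorem actP_mul (hρ : IsQpRep p (Fin 2) ρ) (σ τ : G) (y : Fin 2 → BPlus p) :
    actP ρ (σ * τ) y = actP ρ σ (actP ρ τ y) := by
  rw [show actP ρ τ y = qpHom p (((chi p τ : ℤ_[p]) : ℚ_[p]))⁻¹ •
    ((ρ τ).map (qpHom p) *ᵥ fun i => τ • y i) from rfl, actP_smul, smul_qpHom, actP, actP,
    map_qpHom_smul, Matrix.mulVec_mulVec, ← Matrix.map_mul, ← hρ.map_mul, smul_smul, ← map_mul]
  simp only [mul_smul, map_mul, Units.val_mul, PadicInt.coe_mul, _root_.mul_inv_rev]

theorem thetaPlus_actP (σ : G) (y : Fin 2 → BPlus p) (i : Fin 2) :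
    thetaPlus p (actP ρ σ y i) = twist p (-1) σ *
      ((ρ σ).map (algebraMap ℚ_[p] Cp) *ᵥ fun k => gal σ (thetaPlus p (y k))) i := by
  simp only [actP, Pi.smul_apply, smul_eq_mul, map_mul, Matrix.mulVec, dotProduct,
    Matrix.map_apply, map_sum, thetaPlus_qpHom, smul_bplus_def, thetaPlus_bplusGal, twist,
    _root_.zpow_neg_one]

/-- **Averaging.** -/
theorem exists_fixed_vector (hρ : IsQpRep p (Fin 2) ρ) {U : Subgroup G}
    (hU : IsOpen (U : Set G)) {y : Fin 2 → BPlus p} (hy : ∀ u ∈ U, actP ρ u y = y) {j : Fin 2}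
    (hθ : thetaPlus p (y j) ≠ 0) :
    ∃ z : Fin 2 → BPlus p, (∀ σ, actP ρ σ z = z) ∧ ∃ i, thetaPlus p (z i) ≠ 0 := by
  classical
  set L := IntermediateField.fixedField U
  have hLU : L.fixingSubgroup = U := InfiniteGalois.fixingSubgroup_fixedField
    ⟨U, Subgroup.isClosed_of_isOpen U hU⟩
  have : Finite (G ⧸ U) := U.quotient_finite_of_isOpen hU
  have : Fintype (G ⧸ U) := Fintype.ofFinite _
  let g : G ⧸ U → G := Quotient.out
  have hg : ∀ q, (g q : G ⧸ U) = q := Quotient.out_eq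
  let T : Ω → G → Fin 2 → BPlus p := fun a σ => actP ρ σ (emb p a • y)
  have hTu : ∀ a ∈ L, ∀ σ, ∀ u ∈ U, T a (σ * u) = T a σ := fun a ha σ u hu => by
    have hua : u a = a := (IntermediateField.mem_fixingSubgroup_iff L u).1 (hLU.symm ▸ hu) a ha
    simp only [T]
    rw [actP_mul hρ, actP_smul, hy u hu, smul_emb, hua]
  have hTq : ∀ a ∈ L, ∀ σ : G, T a (g (σ : G ⧸ U)) = T a σ := fun a ha σ => by
    have h := hTu a ha σ (σ⁻¹ * g (σ : G ⧸ U)) (QuotientGroup.eq.1 (hg _).symm)
    rwa [mul_inv_cancel_left] at h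
  have hfix : ∀ a ∈ L, ∀ σ : G, actP ρ σ (∑ q, T a (g q)) = ∑ q, T a (g q) := fun a ha σ => by
    rw [actP_sum]
    refine Fintype.sum_equiv (MulAction.toPerm σ) _ _ fun q => ?_
    have e : MulAction.toPerm σ q = ((σ * g q : G) : G ⧸ U) := by
      conv_lhs => rw [← hg q]
      rfl
    simp only [T, e, ← actP_mul hρ]
    exact (hTq a ha _).symm
  by_contra hne
  push Not at hne
  let φ : G ⧸ U → (L →* Cp) := fun q =>
    (((algebraMap Ω Cp).comp (g q : Ω →+* Ω)).comp (algebraMap L Ω)).toMonoidHom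
  have hφ : Function.Injective φ := fun q q' h => by
    rw [← hg q, ← hg q', QuotientGroup.eq]
    refine hLU.le ((IntermediateField.mem_fixingSubgroup_iff L _).2 fun a ha => ?_)
    have h1 : g q a = g q' a :=
      (algebraMap Ω Cp).injective (DFunLike.congr_fun h ⟨a, ha⟩)
    rw [AlgEquiv.mul_apply, ← h1]
    exact (g q).symm_apply_apply a
  have hli := (linearIndependent_monoidHom L Cp).comp φ hφ
  let w : G ⧸ U → Fin 2 → Cp := fun q i => thetaPlus p (actP ρ (g q) y i)
  have hw : ∀ i q, w q i = 0 := fun i q => by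
    refine Fintype.linearIndependent_iff.1 hli (fun q => w q i) ?_ q
    funext a
    have h := hne _ (hfix a a.2) i
    rw [Finset.sum_apply, map_sum] at h
    rw [Finset.sum_apply, Pi.zero_apply, ← h]
    refine Finset.sum_congr rfl fun q _ => ?_
    simp only [T, actP_smul, Pi.smul_apply, smul_eq_mul, map_mul, Function.comp_apply, w]
    rw [smul_emb, thetaPlus_emb, mul_comm]
    rfl
  refine hθ ?_
  have h1 := hw j ((1 : G) : G ⧸ U)
  have e := congrFun (hy (g ((1 : G) : G ⧸ U)) (by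
    have := QuotientGroup.eq.1 (hg ((1 : G) : G ⧸ U)).symm
    rwa [inv_one, one_mul] at this)) j
  simp only [w, e] at h1
  exact h1

end FA.EDR
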