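import Fermat.Agent.SupersingularDeRham.Systems
import Mathlib.AlgebraicGeometry.EllipticCurve.IsomOfJ
import Mathlib.AlgebraicGeometry.EllipticCurve.ModelsWithJ

/-!
# A good equation congruent to one over `ℤ`

The reduced invariant of a good equation of a curve over `ℚ` lies in the prime field, so a further
integral change of variables makes it congruent to an equation over `ℤ`; potentially supersingular
reduction makes the latter supersingular.
-/

set_option autoImplicit false
set_option linter.unusedSectionVars false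
set_option linter.style.haveILetI false

noncomputable section

open WeierstrassCurve FA.Frob FA.EC FA.Local FA.RT.Tate FA.OrdDR FA.PotDR
open scoped WeierstrassCurve.Affine Classical

namespace FA.EDR

local notation "Qb" => AlgebraicClosure ℚ

variable {p : ℕ} [hp : Fact p.Prime]

theorem not_dvd_den {x : ℚ} (h : 0 ≤ padicValRat p x) : ¬ p ∣ x.den := fun hd => by
  have hn : ¬ (p : ℤ) ∣ x.num := fun hn =>
    Nat.not_coprime_of_dvd_of_dvd hp.out.one_lt (Int.natCast_dvd.1 hn) hd x.reduced
  have hden : 1 ≤ padicValNat p x.den := one_le_padicValNat_of_dvd x.den_ne_zero hd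
  rw [padicValRat, padicValInt.eq_zero_of_not_dvd hn] at h
  omega

theorem natCast_resP_ne_zero {m : ℕ} (h : ¬ p ∣ m) : (m : ResP p) ≠ 0 := fun h0 =>
  h ((CharP.cast_eq_zero_iff (ResP p) p m).1 h0)

/-- The residue class of a rational invariant integral at `p`. -/
theorem residue_j {IA : WeierstrassCurve (padicPlace p)} [IA.IsElliptic] {x : ℚ}
    (hx : 0 ≤ padicValRat p x) (hj : ((IA.j : padicPlace p) : Qb) = algebraMap ℚ Qb x) :
    IsLocalRing.residue (padicPlace p) IA.j =
      castP p ((x.num : ZMod p) / (x.den : ZMod p)) := by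
  have hA : (x.den : padicPlace p) * IA.j = (x.num : padicPlace p) := by
    refine Subtype.ext ?_
    have h1 : (x.den : Qb) * algebraMap ℚ Qb x = (x.num : Qb) := by
      rw [← map_natCast (algebraMap ℚ Qb), ← map_mul, ← map_intCast (algebraMap ℚ Qb)]
      congr 1
      rw [mul_comm]
      exact Rat.mul_den_eq_num x
    push_cast
    rw [hj, h1]
  have h2 := congrArg (IsLocalRing.residue (padicPlace p)) hA
  rw [map_mul, map_natCast, map_intCast] at h2
  rw [map_div₀, map_intCast, map_natCast, eq_div_iff (natCast_resP_ne_zero (not_dvd_den hx)),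
    mul_comm]
  exact h2

/-- An equation over `ℤ` with given reduced invariant. -/
theorem exists_model_of_j (j : ZMod p) :
    ∃ W₀ : WeierstrassCurve ℤ, W₀.IsGoodPrimeFor p ∧ W₀.reductionMod p = ofJ j := by
  refine ⟨⟨((ofJ j).a₁.val : ℤ), (ofJ j).a₂.val, (ofJ j).a₃.val, (ofJ j).a₄.val,
    (ofJ j).a₆.val⟩, ?_⟩
  set W₀ : WeierstrassCurve ℤ := ⟨((ofJ j).a₁.val : ℤ), (ofJ j).a₂.val, (ofJ j).a₃.val,
    (ofJ j).a₄.val, (ofJ j).a₆.val⟩
  have e : W₀.reductionMod p = ofJ j := by
    ext <;> simp [W₀, reductionMod]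
  refine ⟨fun hd => ?_, e⟩
  refine (ofJ j).isUnit_Δ.ne_zero ?_
  rw [← e, reductionMod, WeierstrassCurve.map_Δ]
  exact (ZMod.intCast_zmod_eq_zero_iff_dvd _ p).2 hd

variable {W : WeierstrassCurve ℤ} [(ratCurve W).IsElliptic]

/-- A good equation of a variable change over the valuation ring. -/
theorem isGoodEq_of_map {D : VariableChange Qb} {VA : WeierstrassCurve (padicPlace p)}
    (hVA : VA.map (padicPlace p).subtype = D • ((ratCurve W)⁄Qb)) (hΔ : IsUnit VA.Δ) :
    IsGoodEq p W D (VA.map (padicPlace p).subtype) where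
  eq := hVA
  int := by
    constructor <;> exact ((padicPlace p).valuation_le_one_iff _).2 (Subtype.coe_prop _)
  disc := by
    rw [WeierstrassCurve.map_Δ]
    exact ((padicPlace p).valuation_eq_one_iff _).1 hΔ

/-- **A good equation congruent to one over `ℤ` with supersingular reduction.** -/
theorem exists_congruent_model (h : PotSupersingular p W) :
    ∃ (D : VariableChange Qb) (VA : WeierstrassCurve (padicPlace p)) (W₀ : WeierstrassCurve ℤ),
      VA.map (padicPlace p).subtype = D • ((ratCurve W)⁄Qb) ∧ IsUnit VA.Δ ∧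
      VA.map (IsLocalRing.residue (padicPlace p)) = W₀.map (Int.castRingHom (ResP p)) ∧
      FA.SSDR.IsSupersingularAt p W₀ ∧
      ∀ (n : ℕ) (P : (VA.map (padicPlace p).subtype).toAffine.Point), p ^ n • P = 0 →
        E1 (padicPlace p).valuation (VA.map (padicPlace p).subtype).toAffine P := by
  obtain ⟨hj, C, V, hgood, hall⟩ := h
  haveI := hgood.isElliptic
  haveI : ((ratCurve W)⁄Qb).IsElliptic :=
    inferInstanceAs ((ratCurve W).map (algebraMap ℚ Qb)).IsElliptic
  have hA := FA.GalCoh.liesOverPrime_padicPlace p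
  set IA := OpenImageAll.integralModel hgood.int
  have hIA : IA.map (padicPlace p).subtype = V := OpenImageAll.map_integralModel hgood.int
  have hΔA : IsUnit IA.Δ := ((padicPlace p).valuation_eq_one_iff _).2 (by
    have e := congrArg WeierstrassCurve.Δ hIA
    rw [WeierstrassCurve.map_Δ] at e
    exact (congrArg (padicPlace p).valuation e).trans hgood.disc)
  haveI : IA.IsElliptic := ⟨hΔA⟩
  set x := (ratCurve W).j
  have hjA : ((IA.j : padicPlace p) : Qb) = algebraMap ℚ Qb x := by
    have e1 : (IA.map (padicPlace p).subtype).j = V.j := by congr 1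
    have e2 : V.j = (C • ((ratCurve W)⁄Qb)).j := by congr 1; exact hgood.eq
    rw [WeierstrassCurve.map_j, e2, variableChange_j] at e1
    exact e1.trans (WeierstrassCurve.map_j _ _)
  set jb : ZMod p := (x.num : ZMod p) / (x.den : ZMod p)
  obtain ⟨W₀, hg₀, hW₀⟩ := exists_model_of_j jb
  have hk : W₀.map (Int.castRingHom (ResP p)) = (ofJ jb).map (castP p) := by
    rw [← hW₀, reductionMod, WeierstrassCurve.map_map]
    congr 1
    exact RingHom.ext_int _ _
  obtain ⟨Cb, hCb⟩ := exists_variableChange_of_j_eq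
    (IA.map (IsLocalRing.residue (padicPlace p))) ((ofJ jb).map (castP p)) (by
      rw [WeierstrassCurve.map_j, WeierstrassCurve.map_j, ofJ_j, residue_j hj hjA])
  -- lift the change of variables
  obtain ⟨a, ha⟩ := IsLocalRing.residue_surjective (Cb.u : ResP p)
  have hau : IsUnit a := by
    by_contra hnu
    refine Cb.u.ne_zero ?_
    rw [← ha, IsLocalRing.residue_eq_zero_iff]
    exact hnu
  obtain ⟨r, hr⟩ := IsLocalRing.residue_surjective Cb.r
  obtain ⟨s, hs⟩ := IsLocalRing.residue_surjective Cb.s
  obtain ⟨t, ht⟩ := IsLocalRing.residue_surjective Cb.t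
  set CA : VariableChange (padicPlace p) := ⟨hau.unit, r, s, t⟩
  have hCA : CA.map (IsLocalRing.residue (padicPlace p)) = Cb := by
    refine VariableChange.ext (Units.ext ?_) hr hs ht
    exact ha
  set VA := CA • IA
  have hres : VA.map (IsLocalRing.residue (padicPlace p)) =
      W₀.map (Int.castRingHom (ResP p)) := by
    rw [← map_variableChange, hCA, hCb, hk]
  have hmap : VA.map (padicPlace p).subtype =
      (CA.map (padicPlace p).subtype * C) • ((ratCurve W)⁄Qb) := by
    rw [← map_variableChange, hIA, hgood.eq, mul_smul]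
  have hVΔ : IsUnit VA.Δ := (CA • IA).isUnit_Δ
  have hgood' := isGoodEq_of_map hmap hVΔ
  have hall' : ∀ (n : ℕ) (P : (VA.map (padicPlace p).subtype).toAffine.Point), p ^ n • P = 0 →
      E1 (padicPlace p).valuation (VA.map (padicPlace p).subtype).toAffine P := fun n P hP => by
    obtain ⟨e, he⟩ := hgood.exists_equiv hgood'
    exact (he P).1 (hall n (e P) (by rw [← map_nsmul, hP, map_zero]))
  haveI := hgood'.isElliptic
  haveI : (ratCurve W₀).IsElliptic :=
    ratCurve_isElliptic_of_Δ (fun h0 => hg₀ (h0 ▸ dvd_zero _))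
  refine ⟨_, VA, W₀, hmap, hVΔ, hres, ⟨hg₀, ?_⟩, hall'⟩
  by_contra hord
  obtain ⟨T, hT, hT0⟩ := exists_redPt_ne_zero hg₀ hord
  have ered : OpenImageAll.reduced hgood'.int = redP p W₀ := by
    rw [redP_eq_map, reductionMod, WeierstrassCurve.map_map,
      show (castP p).comp (Int.castRingHom (ZMod p)) = Int.castRingHom (ResP p) from
        RingHom.ext_int _ _, ← hres]
    rfl
  have hdeg : ((OpenImageAll.reduced hgood'.int).ΨSq (p : ℤ)).natDegree = 0 := by
    by_contra hne
    obtain ⟨T', hT', hT'E⟩ :=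
      OpenImageAll.exists_torsion_not_e1_of_root hp.out hA (hI := hgood'.int) hgood'.disc hne 0
    rw [pow_zero, one_nsmul] at hT'E
    exact hT'E (hall' _ T' hT')
  rw [ered] at hdeg
  refine hT0 ((redPt_eq_zero_iff hg₀).2 ?_)
  refine OpenImageAll.e1_of_pow_nsmul_eq_zero hp.out hA (intCoeff_ratCurve W₀ _)
    (valuation_Δ_ratCurve W₀ hp.out hA hg₀) hdeg (n := 1) ?_
  rw [pow_one]
  exact hT

end FA.EDR
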