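import Fermat.Agent.EveryDeRham.Average
import Fermat.Agent.BDRCohomology.Cohomology

/-!
# A lift of the vector of weight one makes a representation de Rham

For a representation of dimension two and determinant `χ`, a vector of `B_dR⁺ ⊗ V` on which the
group acts by `χ` and whose image under `θ` is nonzero splits the representation over `B_dR`: the
class of the extension lies in `H¹ (t B_dR⁺)`, which vanishes.
-/

set_option autoImplicit false
set_option linter.unusedSectionVars false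

noncomputable section

open Matrix FA.TateSen FA.BDR FA.Sen FA.PadicHodge FA.BDRCoh

namespace FA.EDR

variable {p : ℕ} [hp : Fact p.Prime]

local notation "Cp" => ℂ_[p]
local notation "G" => PadicAlgCl p ≃ₐ[ℚ_[p]] PadicAlgCl p
local notation "ι" => algebraMap (BPlus p) (BField p)

/-- The determinant of two vectors. -/
def det2 {R : Type*} [CommRing R] (u v : Fin 2 → R) : R := u 0 * v 1 - u 1 * v 0

theorem det2_mulVec {R : Type*} [CommRing R] (M : Matrix (Fin 2) (Fin 2) R) (u v : Fin 2 → R) :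
    det2 (M *ᵥ u) (M *ᵥ v) = M.det * det2 u v := by
  simp [det2, Matrix.det_fin_two, Matrix.mulVec, dotProduct, Fin.sum_univ_two]
  ring

theorem eq_of_det2 {R : Type*} [CommRing R] {z y u : Fin 2 → R} (h : det2 z y = 1) :
    u = det2 u y • z + det2 z u • y := by
  funext i
  simp only [det2] at h
  fin_cases i
  · simp [det2]
    linear_combination -(u 0) * h
  · simp [det2]
    linear_combination -(u 1) * h

theorem map_det2 {R S : Type*} [CommRing R] [CommRing S] (f : R →+* S) (u v : Fin 2 → R) :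
    f (det2 u v) = f (u 0) * f (v 1) - f (u 1) * f (v 0) := by
  simp [det2]

variable {ρ : (PadicAlgCl p ≃ₐ[ℚ_[p]] PadicAlgCl p) → Matrix (Fin 2) (Fin 2) ℚ_[p]}

theorem chi_mul_qp (σ τ : G) :
    ((chi p (σ * τ) : ℤ_[p]) : ℚ_[p]) =
      ((chi p σ : ℤ_[p]) : ℚ_[p]) * ((chi p τ : ℤ_[p]) : ℚ_[p]) := by
  simp only [map_mul, Units.val_mul, PadicInt.coe_mul]

theorem map_mulVec_smul (hρ : IsQpRep p (Fin 2) ρ) (σ τ : G) (z : Fin 2 → BPlus p) :
    ((ρ (σ * τ)).map (qpHom p) *ᵥ fun i => (σ * τ) • z i) =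
      (ρ σ).map (qpHom p) *ᵥ fun i => σ • ((ρ τ).map (qpHom p) *ᵥ fun k => τ • z k) i := by
  rw [map_qpHom_smul, Matrix.mulVec_mulVec, ← Matrix.map_mul, ← hρ.map_mul]
  simp only [mul_smul]

/-- The matrix with two given columns. -/
def cols2 {R : Type*} (a b : Fin 2 → R) : Matrix (Fin 2) (Fin 2) R :=
  Matrix.of fun i k => ![a i, b i] k

theorem mul_cols2 {R : Type*} [CommRing R] (M : Matrix (Fin 2) (Fin 2) R) (a b : Fin 2 → R) :
    M * cols2 a b = cols2 (M *ᵥ a) (M *ᵥ b) := by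
  refine Matrix.ext fun i k => ?_
  fin_cases k <;> simp [cols2, Matrix.mul_apply, Matrix.mulVec, dotProduct]

theorem map_cols2 {R S : Type*} (f : R → S) (a b : Fin 2 → R) :
    (cols2 a b).map f = cols2 (fun i => f (a i)) (fun i => f (b i)) := by
  refine Matrix.ext fun i k => ?_
  fin_cases k <;> rfl

theorem det_cols2 {R : Type*} [CommRing R] (a b : Fin 2 → R) :
    (cols2 a b).det = det2 a b := by
  simp [cols2, det2, Matrix.det_fin_two, mul_comm]

/-- A basis with one invariant vector and one vector on which the group acts by `χ`. -/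
theorem isDeRham_of_basis {z y : Fin 2 → BPlus p} (hzy : det2 z y = 1)
    (hz : ∀ σ : G, ((ρ σ).map (qpHom p) *ᵥ fun i => σ • z i) = z)
    (hy : ∀ σ : G, ((ρ σ).map (qpHom p) *ᵥ fun i => σ • y i) =
      qpHom p ((chi p σ : ℤ_[p]) : ℚ_[p]) • y) : IsDeRham ρ := by
  set a : Fin 2 → BField p := fun i => ι (z i)
  set b : Fin 2 → BField p := fun i => ι (y i) * tB p ^ (-1 : ℤ)
  have hu : IsUnit (cols2 a b) := by
    rw [Matrix.isUnit_iff_isUnit_det, det_cols2, isUnit_iff_ne_zero]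
    have e : det2 a b = ι (det2 z y) * tB p ^ (-1 : ℤ) := by
      rw [map_det2]
      simp only [a, b, det2]
      ring
    rw [e, hzy, map_one, one_mul]
    exact zpow_ne_zero _ tB_ne_zero
  obtain ⟨V, hV⟩ := hu
  refine ⟨V, fun σ => ?_⟩
  rw [hV, map_cols2, mul_cols2]
  have hmv : ∀ v : Fin 2 → BPlus p, ((ρ σ).map (qpB p) *ᵥ fun i => σ • ι (v i)) =
      fun i => ι (((ρ σ).map (qpHom p) *ᵥ fun k => σ • v k) i) := fun v => funext fun i => by
    rw [RingHom.map_mulVec ι, Matrix.map_map]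
    refine congrFun (congrArg₂ _ rfl (funext fun k => ?_)) i
    exact smul_algebraMap_bfield σ (v k)
  congr 1
  · rw [hmv, hz σ]
  · have e : (fun i => σ • b i) = (σ • tB p ^ (-1 : ℤ)) • fun i => σ • ι (y i) :=
      funext fun i => (smul_mul' σ _ _).trans (mul_comm _ _)
    rw [e, Matrix.mulVec_smul, hmv, hy σ, smul_tB_zpow]
    funext i
    simp only [Pi.smul_apply, smul_eq_mul, map_mul, b]
    rw [mul_mul_mul_comm, ← map_mul, ← map_mul,
      _root_.zpow_neg_one ((chi p σ : ℤ_[p]) : ℚ_[p]), inv_mul_cancel₀ (chi_ne_zero σ), map_one,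
      map_one, one_mul, mul_comm]

/-- The weights of such a basis. -/
theorem weights_of_basis {z y : Fin 2 → BPlus p} (hzy : det2 z y = 1)
    (hz : ∀ σ : G, ((ρ σ).map (qpHom p) *ᵥ fun i => σ • z i) = z)
    (hy : ∀ σ : G, ((ρ σ).map (qpHom p) *ᵥ fun i => σ • y i) =
      qpHom p ((chi p σ : ℤ_[p]) : ℚ_[p]) • y) :
    ∃ P : (Matrix (Fin 2) (Fin 2) Cp)ˣ, ∀ τ,
      FA.Sen.conj (cpRep ρ) P τ = Matrix.diagonal fun i => twist p (![1, 0] i) τ := by
  set a : Fin 2 → Cp := fun i => thetaPlus p (y i)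
  set b : Fin 2 → Cp := fun i => thetaPlus p (z i)
  obtain ⟨P, hP⟩ : IsUnit (cols2 a b) := by
    rw [Matrix.isUnit_iff_isUnit_det, det_cols2, isUnit_iff_ne_zero]
    have e : det2 a b = -thetaPlus p (det2 z y) := by
      rw [map_det2]
      simp only [a, b, det2]
      ring
    rw [e, hzy, map_one]
    exact neg_ne_zero.2 one_ne_zero
  refine ⟨P, fun σ => conj_eq_iff.2 ?_⟩
  rw [hP, show galM σ (cols2 a b) = (cols2 a b).map (gal σ) from rfl, map_cols2, mul_cols2]
  have hmv : ∀ v : Fin 2 → BPlus p, (cpRep ρ σ *ᵥ fun i => gal σ (thetaPlus p (v i))) =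
      fun i => thetaPlus p (((ρ σ).map (qpHom p) *ᵥ fun k => σ • v k) i) :=
    fun v => funext fun i => by
    simp [Matrix.mulVec, dotProduct, cpRep, thetaPlus_qpHom, smul_bplus_def, thetaPlus_bplusGal]
  rw [hmv y, hmv z, hz σ, hy σ]
  refine Matrix.ext fun i k => ?_
  rw [Matrix.mul_diagonal]
  fin_cases k
  · show thetaPlus p ((qpHom p ((chi p σ : ℤ_[p]) : ℚ_[p]) • y) i) = a i * twist p 1 σ
    rw [Pi.smul_apply, smul_eq_mul, map_mul, thetaPlus_qpHom, twist, zpow_one, mul_comm]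
  · show b i = b i * twist p 0 σ
    rw [twist_zero, mul_one]

/-- **The criterion.** -/
theorem isDeRham_of_eigen (hρ : IsQpRep p (Fin 2) ρ)
    (hdet : ∀ τ, (ρ τ).det = ((chi p τ : ℤ_[p]) : ℚ_[p])) {U : Subgroup G}
    (hU : IsOpen (U : Set G)) {y₀ : Fin 2 → BPlus p}
    (hy₀ : ∀ σ ∈ U, ((ρ σ).map (qpHom p) *ᵥ fun i => σ • y₀ i) =
      qpHom p ((chi p σ : ℤ_[p]) : ℚ_[p]) • y₀)
    {j : Fin 2} (hθ : thetaPlus p (y₀ j) ≠ 0) :
    IsDeRham ρ ∧ ∃ P : (Matrix (Fin 2) (Fin 2) Cp)ˣ, ∀ τ,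
      FA.Sen.conj (cpRep ρ) P τ = Matrix.diagonal fun i => twist p (![1, 0] i) τ := by
  obtain ⟨y, hy', i, hi⟩ := exists_fixed_vector hρ hU (y := y₀) (fun u hu => by
    rw [actP, hy₀ u hu, smul_smul, ← map_mul, inv_mul_cancel₀ (chi_ne_zero u), map_one,
      one_smul]) hθ
  have hy : ∀ σ, ((ρ σ).map (qpHom p) *ᵥ fun i => σ • y i) =
      qpHom p ((chi p σ : ℤ_[p]) : ℚ_[p]) • y := fun σ => by
    conv_rhs => rw [← hy' σ]
    rw [actP, smul_smul, ← map_mul, mul_inv_cancel₀ (chi_ne_zero σ), map_one, one_smul]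
  have hyi : IsUnit (y i) := isUnit_iff_thetaPlus.2 hi
  obtain ⟨z, hz⟩ : ∃ z : Fin 2 → BPlus p, det2 z y = 1 := by
    obtain ⟨a, ha⟩ := hyi.exists_left_inv
    fin_cases i
    · exact ⟨![0, -a], by simp [det2] at ha ⊢; exact ha⟩
    · exact ⟨![a, 0], by simp [det2] at ha ⊢; exact ha⟩
  set u : G → Fin 2 → BPlus p := fun σ => (ρ σ).map (qpHom p) *ᵥ fun i => σ • z i
  have ha : ∀ σ, det2 (u σ) y = 1 := fun σ => by
    have hc : qpHom p ((chi p σ : ℤ_[p]) : ℚ_[p]) ≠ 0 :=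
      (map_ne_zero (qpHom p)).2 (chi_ne_zero σ)
    refine mul_left_cancel₀ hc ?_
    rw [mul_one]
    have e : qpHom p ((chi p σ : ℤ_[p]) : ℚ_[p]) * det2 (u σ) y =
        det2 (u σ) (qpHom p ((chi p σ : ℤ_[p]) : ℚ_[p]) • y) := by
      simp [det2]
      ring
    rw [e, ← hy σ, det2_mulVec, show ((ρ σ).map (qpHom p)).det = qpHom p (ρ σ).det from
      ((qpHom p).map_det _).symm, hdet,
      show det2 (fun i => σ • z i) (fun i => σ • y i) = σ • det2 z y by
        simp [det2, smul_sub, smul_mul'], hz, smul_one, mul_one]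
  set b : G → BPlus p := fun σ => det2 z (u σ)
  have hu : ∀ σ, u σ = z + b σ • y := fun σ => by
    conv_lhs => rw [eq_of_det2 (u := u σ) hz, ha σ, one_smul]
  have hb : ∀ σ τ, b (σ * τ) =
      b σ + qpHom p ((chi p σ : ℤ_[p]) : ℚ_[p]) * σ • b τ := fun σ τ => by
    have h : u (σ * τ) = z + (b σ + qpHom p ((chi p σ : ℤ_[p]) : ℚ_[p]) * σ • b τ) • y := by
      have e : (fun i => σ • (z + b τ • y) i) =
          (fun i => σ • z i) + (σ • b τ) • fun i => σ • y i := funext fun i => by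
        simp [smul_add, smul_mul']
      show (ρ (σ * τ)).map (qpHom p) *ᵥ _ = _
      rw [map_mulVec_smul hρ,
        show ((ρ τ).map (qpHom p) *ᵥ fun k => τ • z k) = z + b τ • y from hu τ, e,
        Matrix.mulVec_add, Matrix.mulVec_smul, hy σ,
        show ((ρ σ).map (qpHom p) *ᵥ fun i => σ • z i) = z + b σ • y from hu σ, smul_smul,
        add_assoc, ← add_smul, mul_comm (σ • b τ)]
    show det2 z (u (σ * τ)) = _
    rw [h]
    simp [det2] at hz ⊢
    linear_combination (b σ + qpHom p ((chi p σ : ℤ_[p]) : ℚ_[p]) * σ • b τ) * hz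
  have hbc : ContBPlus p b := by
    have hm : ∀ k l, ContBPlus p fun σ => qpHom p (ρ σ k l) * σ • z l := fun k l =>
      (contBPlus_qpHom (hρ.cont.matrix_elem k l)).mul (contBPlus_smul (z l))
    have e : b = fun σ => z 0 * (qpHom p (ρ σ 1 0) * σ • z 0 + qpHom p (ρ σ 1 1) * σ • z 1) -
        z 1 * (qpHom p (ρ σ 0 0) * σ • z 0 + qpHom p (ρ σ 0 1) * σ • z 1) := funext fun σ => by
      simp [b, u, det2]
    rw [e]
    exact ((ContBPlus.const _).mul ((hm 1 0).add (hm 1 1))).sub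
      ((ContBPlus.const _).mul ((hm 0 0).add (hm 0 1)))
  obtain ⟨w, ⟨c, hc⟩, hw⟩ := exists_coboundary_twisted (k := 1) le_rfl
    (f := fun σ => tPeriod p * b σ)
    ⟨(ContBPlus.const _).mul hbc, fun σ τ => by
      rw [hb, smul_mul', smul_tPeriod]
      ring⟩ fun σ => by
      rw [pow_one]
      exact dvd_mul_right _ _
  rw [pow_one] at hc
  have hbc' : ∀ σ, b σ = qpHom p ((chi p σ : ℤ_[p]) : ℚ_[p]) * σ • c - c := fun σ => by
    refine mul_left_cancel₀ (tPeriod_ne_zero (p := p)) ((hw σ).trans ?_)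
    rw [hc, smul_mul', smul_tPeriod]
    ring
  set z' : Fin 2 → BPlus p := z - c • y
  have hz'σ : ∀ σ, ((ρ σ).map (qpHom p) *ᵥ fun i => σ • z' i) = z' := fun σ => by
    have e : (fun i => σ • z' i) = (fun i => σ • z i) - (σ • c) • fun i => σ • y i :=
      funext fun i => by simp [z', smul_sub, smul_mul']
    rw [e, Matrix.mulVec_sub, Matrix.mulVec_smul, hy σ,
      show ((ρ σ).map (qpHom p) *ᵥ fun i => σ • z i) = z + b σ • y from hu σ, hbc', smul_smul]
    funext i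
    simp [z']
    ring
  have hz' : det2 z' y = 1 := by
    simp [det2, z'] at hz ⊢
    linear_combination hz
  exact ⟨isDeRham_of_basis hz' hz'σ hy, weights_of_basis hz' hz'σ hy⟩

/-- The vector of a map to `B_dR⁺` given on the two basis vectors. -/
theorem eigen_of_row (σ : G) {F : Fin 2 → BPlus p}
    (hF : ∀ j, σ • F j = qpHom p (ρ σ 0 j) * F 0 + qpHom p (ρ σ 1 j) * F 1) :
    ((ρ σ).map (qpHom p) *ᵥ fun i => σ • ![F 1, -F 0] i) =
      qpHom p (ρ σ).det • ![F 1, -F 0] := by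
  funext i
  fin_cases i <;>
    simp [Matrix.mulVec, dotProduct, Fin.sum_univ_two, smul_neg, hF, Matrix.det_fin_two] <;>
    ring

/-- **The criterion for a map to `B_dR⁺`.** -/
theorem isDeRham_of_row (hρ : IsQpRep p (Fin 2) ρ)
    (hdet : ∀ τ, (ρ τ).det = ((chi p τ : ℤ_[p]) : ℚ_[p])) {U : Subgroup G}
    (hU : IsOpen (U : Set G)) {F : Fin 2 → BPlus p}
    (hF : ∀ σ ∈ U, ∀ j, σ • F j = qpHom p (ρ σ 0 j) * F 0 + qpHom p (ρ σ 1 j) * F 1)
    {j : Fin 2} (hθ : thetaPlus p (F j) ≠ 0) :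
    IsDeRham ρ ∧ ∃ P : (Matrix (Fin 2) (Fin 2) Cp)ˣ, ∀ τ,
      FA.Sen.conj (cpRep ρ) P τ = Matrix.diagonal fun i => twist p (![1, 0] i) τ := by
  refine isDeRham_of_eigen hρ hdet hU (y₀ := ![F 1, -F 0])
    (fun σ hσ => by rw [eigen_of_row σ (hF σ hσ), hdet]) (j := ![1, 0] j) ?_
  fin_cases j <;> simpa using hθ

end FA.EDR
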