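import Fermat.Agent.SupersingularDeRham.Points

/-!
# The parameter on the kernel of reduction of an equation over the integers of `ℂ_p`

An equation over `O_{ℂ_p}` need not come from `ℚ`; its formal law adds the points with small
parameter, and every point with large abscissa is one of them.
-/

set_option autoImplicit false
set_option linter.unusedSectionVars false
set_option linter.style.haveILetI false

noncomputable section

open Ideal WeierstrassCurve FA.TateSen FA.BDR FA.SSDR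
open scoped WeierstrassCurve.Affine Classical

namespace FA.EDR

attribute [local irreducible] fgAdd wSeries mulN

variable {σ : Type*} [Finite σ] {p : ℕ} [hp : Fact p.Prime]

local notation "C" => ℂ_[p]

variable (p) in
/-- The inclusion of the integers. -/
abbrev ocC : OC p →+* ℂ_[p] := (PadicComplexInt p).subtype

/-- Evaluation of series over the integers. -/
abbrev evI (t : σ → OC p) (ht : ∀ s, t s ∈ (span {(p : OC p)}).radical) :
    MvPowerSeries σ (OC p) →+* OC p :=
  evz (span {(p : OC p)}) (RingHom.id (OC p)) t ht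

theorem evI_radical {t : σ → OC p} (ht : ∀ s, t s ∈ (span {(p : OC p)}).radical)
    {f : MvPowerSeries σ (OC p)} (hf : MvPowerSeries.constantCoeff f = 0) :
    evI t ht f ∈ (span {(p : OC p)}).radical :=
  evz_mem_radical _ _ ht hf

theorem evI_comp1 {t : σ → OC p} (ht : ∀ s, t s ∈ (span {(p : OC p)}).radical)
    {g : MvPowerSeries σ (OC p)} (hg : MvPowerSeries.constantCoeff g = 0) {c : OC p}
    (hc : c ∈ (span {(p : OC p)}).radical) (e : evI t ht g = c) (f : PowerSeries (OC p)) :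
    evI t ht (comp1 hg f) = evI (fun _ : Unit => c) (fun _ => hc) f :=
  evz_subHom (span {(p : OC p)}) (RingHom.id _) ht (fun _ => hg) (fun _ : Unit => e.symm) f

/-- An equation with coefficients in `ℤ_p` read over the integers. -/
theorem evI_map {t : σ → OC p} (ht : ∀ s, t s ∈ (span {(p : OC p)}).radical)
    (f : MvPowerSeries σ ℤ_[p]) : evI t ht (MvPowerSeries.map (zpO p) f) = evO t ht f :=
  evz_map _ _ ht (zpO p) _ (fun _ => rfl) f

variable (V : WeierstrassCurve (OC p))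

/-- The point with parameter `t`. -/
def ptG {t : OC p} (ht : t ∈ (span {(p : OC p)}).radical) :
    (V.map (ocC p)).toAffine.Point :=
  aff (V.map (ocC p)) (t : C) ((evI (fun _ : Unit => t) (fun _ => ht) (wSeries V) : OC p) : C)

theorem pnt_evI {t : σ → OC p} (ht : ∀ s, t s ∈ (span {(p : OC p)}).radical)
    {g : MvPowerSeries σ (OC p)} (hg : MvPowerSeries.constantCoeff g = 0) {c : OC p}
    (hc : c ∈ (span {(p : OC p)}).radical) (e : evI t ht g = c) :
    pnt V (ocC p) ((ocC p).comp (evI t ht)) g hg = ptG V hc := by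
  unfold pnt ptG
  rw [RingHom.comp_apply, RingHom.comp_apply, e, evI_comp1 ht hg hc e]
  rfl

theorem evI_C (t : σ → OC p) (ht : ∀ s, t s ∈ (span {(p : OC p)}).radical) (r : OC p) :
    (ocC p).comp (evI t ht) (MvPowerSeries.C r) = ocC p r := by
  rw [RingHom.comp_apply, evz_C]
  rfl

theorem ptG_zero : ptG V (zero_mem _) = 0 := by
  rw [ptG, evz_zero,
    show MvPowerSeries.constantCoeff (wSeries V) = 0 from constantCoeff_wSeries _, map_zero]
  exact aff_zero _ _

variable [(V.map (ocC p)).IsElliptic]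

theorem ptG_add {a b : OC p} (ha : a ∈ (span {(p : OC p)}).radical)
    (hb : b ∈ (span {(p : OC p)}).radical) :
    ptG V ha + ptG V hb =
      ptG V (evI_radical (evO_pair_radical ha hb) (constantCoeff_fgAdd V)) := by
  have hX := constantCoeff_pair (MvPowerSeries.constantCoeff_X (0 : Fin 2) (R := OC p))
    (MvPowerSeries.constantCoeff_X (1 : Fin 2))
  have h := pnt_add V (φ := ocC p) ((ocC p).comp (evI ![a, b] (evO_pair_radical ha hb)))
    (evI_C _ _) hX
  rw [pnt_evI V _ (g := MvPowerSeries.X 0) (MvPowerSeries.constantCoeff_X _) ha (evz_X _ _ _ 0),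
    pnt_evI V _ (g := MvPowerSeries.X 1) (MvPowerSeries.constantCoeff_X _) hb (evz_X _ _ _ 1)] at h
  exact h.trans (pnt_evI V _ _ _ (by rw [subHom_pair_self]))

theorem ptG_mulN {a : OC p} (ha : a ∈ (span {(p : OC p)}).radical) (n : ℕ) :
    ptG V (evI_radical (fun _ : Unit => ha) (constantCoeff_mulN V n)) = n • ptG V ha := by
  have hX : MvPowerSeries.constantCoeff (MvPowerSeries.X () : MvPowerSeries Unit (OC p)) = 0 :=
    MvPowerSeries.constantCoeff_X ()
  have h := pnt_mulN V (φ := ocC p) (e := (ocC p).comp (evI (fun _ : Unit => a) fun _ => ha))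
    (evI_C _ _) hX n
  rw [pnt_evI V _ hX ha (evz_X _ _ _ ())] at h
  rw [← h]
  exact (pnt_evI V _ _ _ (evI_comp1 _ hX ha (evz_X _ _ _ ()) _)).symm

theorem onCurve_ptG {t : OC p} (ht : t ∈ (span {(p : OC p)}).radical) :
    OnCurve (V.map (ocC p)) (t : C)
      ((evI (fun _ : Unit => t) (fun _ => ht) (wSeries V) : OC p) : C) := by
  have hX : MvPowerSeries.constantCoeff (MvPowerSeries.X () : MvPowerSeries Unit (OC p)) = 0 :=
    MvPowerSeries.constantCoeff_X ()
  have h := pnt_onCurve V (φ := ocC p) ((ocC p).comp (evI (fun _ : Unit => t) fun _ => ht))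
    (evI_C _ _) hX
  rw [RingHom.comp_apply, RingHom.comp_apply, evz_X, evI_comp1 _ hX ht (evz_X _ _ _ ())] at h
  exact h

theorem ptG_inj {a b : OC p} (ha : a ∈ (span {(p : OC p)}).radical)
    (hb : b ∈ (span {(p : OC p)}).radical) (h : ptG V ha = ptG V hb) : a = b :=
  Subtype.ext (aff_inj _ (onCurve_ptG V ha) (onCurve_ptG V hb) h).1

/-- Small zeros with the same parameter coincide. -/
theorem onCurve_unique_g {z w w' : C} (hz : ‖z‖ < 1) (hw : ‖w‖ < 1) (hw' : ‖w'‖ < 1)
    (h : OnCurve (V.map (ocC p)) z w) (h' : OnCurve (V.map (ocC p)) z w') : w = w' := by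
  refine sub_eq_zero.1 ((mul_eq_zero.1 (h.sub_mul _ h')).resolve_right fun h0 => ?_)
  have hc : ∀ (r : OC p) x, ‖x‖ < 1 → ‖ocC p r * x‖ < 1 := fun r x hx => by
    rw [norm_mul]
    exact (mul_le_of_le_one_left (norm_nonneg _) (norm_OC_le r)).trans_lt hx
  have hadd : ∀ {x y : C}, ‖x‖ < 1 → ‖y‖ < 1 → ‖x + y‖ < 1 := fun hx hy =>
    (IsUltrametricDist.norm_add_le_max _ _).trans_lt (max_lt hx hy)
  have hmul : ∀ {x y : C}, ‖x‖ < 1 → ‖y‖ < 1 → ‖x * y‖ < 1 := fun hx hy => by
    rw [norm_mul]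
    exact mul_lt_one_of_nonneg_of_lt_one_left (norm_nonneg _) hx hy.le
  have hsq : ∀ {x : C}, ‖x‖ < 1 → ‖x ^ 2‖ < 1 := fun hx => by rw [sq]; exact hmul hx hx
  have hlt : ‖(V.map (ocC p)).a₁ * z + (V.map (ocC p)).a₂ * z ^ 2 +
      (V.map (ocC p)).a₃ * (w + w') + (V.map (ocC p)).a₄ * z * (w + w') +
      (V.map (ocC p)).a₆ * (w ^ 2 + w * w' + w' ^ 2)‖ < 1 := by
    simp only [WeierstrassCurve.map_a₁, WeierstrassCurve.map_a₂, WeierstrassCurve.map_a₃,
      WeierstrassCurve.map_a₄, WeierstrassCurve.map_a₆]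
    exact hadd (hadd (hadd (hadd (hc _ _ hz) (hc _ _ (hsq hz))) (hc _ _ (hadd hw hw')))
      (by rw [mul_assoc]; exact hc _ _ (hmul hz (hadd hw hw'))))
      (hc _ _ (hadd (hadd (hsq hw) (hmul hw hw')) (hsq hw')))
  rw [sub_eq_zero] at h0
  rw [← h0, norm_one] at hlt
  exact lt_irrefl _ hlt

/-- The ordinate is larger than a large abscissa. -/
theorem norm_lt_of_equation_g {x y : C} (h : (V.map (ocC p)).toAffine.Equation x y)
    (hx : 1 < ‖x‖) : ‖x‖ < ‖y‖ := by
  by_contra hle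
  rw [not_lt] at hle
  rw [Affine.equation_iff] at h
  have e : x ^ 3 = y ^ 2 + (V.map (ocC p)).a₁ * x * y + (V.map (ocC p)).a₃ * y -
      (V.map (ocC p)).a₂ * x ^ 2 - (V.map (ocC p)).a₄ * x - (V.map (ocC p)).a₆ := by
    linear_combination -h
  have h1 : (1 : ℝ) ≤ ‖x‖ ^ 2 := one_le_pow₀ hx.le
  have h2 : ‖x‖ ≤ ‖x‖ ^ 2 := le_self_pow₀ hx.le two_ne_zero
  have hb : ∀ (r : OC p) z, ‖z‖ ≤ ‖x‖ ^ 2 → ‖ocC p r * z‖ ≤ ‖x‖ ^ 2 := fun r z hz => by
    rw [norm_mul]
    exact (mul_le_of_le_one_left (norm_nonneg _) (norm_OC_le r)).trans hz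
  have hadd : ∀ {a b : C}, ‖a‖ ≤ ‖x‖ ^ 2 → ‖b‖ ≤ ‖x‖ ^ 2 → ‖a + b‖ ≤ ‖x‖ ^ 2 := fun ha hb =>
    (IsUltrametricDist.norm_add_le_max _ _).trans (max_le ha hb)
  have hsub : ∀ {a b : C}, ‖a‖ ≤ ‖x‖ ^ 2 → ‖b‖ ≤ ‖x‖ ^ 2 → ‖a - b‖ ≤ ‖x‖ ^ 2 := fun ha hb => by
    rw [sub_eq_add_neg]
    exact hadd ha (by rwa [norm_neg])
  have hy2 : ‖y ^ 2‖ ≤ ‖x‖ ^ 2 := by
    rw [norm_pow]
    exact pow_le_pow_left₀ (norm_nonneg _) hle 2
  have hxy : ‖x * y‖ ≤ ‖x‖ ^ 2 := by
    rw [norm_mul, sq]
    exact mul_le_mul_of_nonneg_left hle (norm_nonneg _)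
  have h3 : ‖x ^ 3‖ ≤ ‖x‖ ^ 2 := by
    rw [e]
    simp only [WeierstrassCurve.map_a₁, WeierstrassCurve.map_a₂, WeierstrassCurve.map_a₃,
      WeierstrassCurve.map_a₄, WeierstrassCurve.map_a₆]
    refine hsub (hsub (hsub (hadd (hadd hy2 ?_) (hb _ _ (hle.trans h2)))
      (hb _ _ (by rw [norm_pow]))) (hb _ _ h2)) ((norm_OC_le _).trans h1)
    rw [mul_assoc]
    exact hb _ _ hxy
  rw [norm_pow] at h3
  exact not_lt.2 h3 (pow_lt_pow_right₀ hx (by norm_num))

/-- **A point with large abscissa comes from its parameter.** -/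
theorem exists_ptG {x y : C} (h : (V.map (ocC p)).toAffine.Nonsingular x y) (hx : 1 < ‖x‖) :
    ∃ (t : OC p) (ht : t ∈ (span {(p : OC p)}).radical),
      (t : C) = -x / y ∧ Affine.Point.some x y h = ptG V ht := by
  have hxy := norm_lt_of_equation_g V h.1 hx
  have hy0 : 0 < ‖y‖ := (zero_lt_one.trans hx).trans hxy
  have ht : ‖-x / y‖ < 1 := by rwa [norm_div, norm_neg, div_lt_one hy0]
  set t : OC p := mkOC _ ht.le
  have htr : t ∈ (span {(p : OC p)}).radical := mem_radical_of_norm ht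
  refine ⟨t, htr, rfl, ?_⟩
  set z := -x / y with hz
  set w := -1 / y with hw
  have hy : y ≠ 0 := norm_pos_iff.1 hy0
  have hwz : OnCurve (V.map (ocC p)) z w := by
    have he := h.1
    rw [Affine.equation_iff] at he
    rw [hz, hw, OnCurve]
    field_simp
    linear_combination -he
  have hw0 : w ≠ 0 := div_ne_zero (neg_ne_zero.2 one_ne_zero) hy
  have hwlt : ‖w‖ < 1 := by
    rw [hw, norm_div, norm_neg, norm_one, div_lt_one hy0]
    exact hx.trans hxy
  have hw' : w = ((evI (fun _ : Unit => t) (fun _ => htr) (wSeries V) : OC p) : C) :=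
    onCurve_unique_g V ht hwlt (norm_lt_of_radical (evI_radical _ (constantCoeff_wSeries _))) hwz
      (onCurve_ptG V htr)
  rw [ptG, ← hw', show ((t : OC p) : C) = z from rfl, aff_eq_some _ hwz hw0,
    Affine.Point.some.injEq, hz, hw]
  constructor <;> field_simp

end FA.EDR
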