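import Fermat.Agent.EveryDeRham.Near
import Fermat.Agent.SupersingularDeRham.Periods

/-!
# The logarithm of the congruent lift

A high iterate `w m` of the multiplication by `p` at level zero lies in a high power of the ideal of
definition, so `w m / p ^ m` converges in `B_dR⁺`. The limit is linear and commutes with Galois, and
if its image under `θ` vanishes then so does that of an iterate.
-/

set_option autoImplicit false
set_option linter.unusedSectionVars false

noncomputable section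

open Ideal Finset FA.TateSen FA.FontaineWintenberger FA.BDR FA.BDRCoh FA.PadicHodge FA.SSDR

namespace FA.EDR

attribute [local irreducible] fgAdd wSeries mulN

variable {p : ℕ} [hp : Fact p.Prime]

local notation "C" => ℂ_[p]
local notation "G" => PadicAlgCl p ≃ₐ[ℚ_[p]] PadicAlgCl p

variable {π : OC p} {W : WeierstrassCurve ℤ} {V : WeierstrassCurve (OC p)}

/-! ### Iterates -/

variable (W) in
/-- The iterates of multiplication by `p`. -/
def itA (a : {a : AInf p // a ∈ (defIdeal p).radical}) :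
    ℕ → {a : AInf p // a ∈ (defIdeal p).radical}
  | 0 => a
  | m + 1 => ⟨mulPA W (itA a m).2, mulPA_radical W _⟩

theorem itA_succ (a : {a : AInf p // a ∈ (defIdeal p).radical}) (m : ℕ) :
    (itA W a (m + 1) : AInf p) = mulPA W (itA W a m).2 := rfl

theorem mulPA_congr {a b : AInf p} (ha : a ∈ (defIdeal p).radical) (e : a = b) :
    mulPA W ha = mulPA W (e ▸ ha) := by
  subst e
  rfl

theorem mulPA_zero : mulPA (p := p) W (zero_mem _) = 0 := by
  rw [mulPA, evz_zero, show MvPowerSeries.constantCoeff (mulN (wZp p W) p) = 0 from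
    constantCoeff_mulN _ _, map_zero]

theorem itA_mem (h : IsNear π W V) (a : {a : AInf p // a ∈ (defIdeal p).radical})
    (ha : (a : AInf p) ∈ nearI π) : ∀ m, (itA W a m : AInf p) ∈ nearI π ^ (m + 1)
  | 0 => by rw [zero_add, pow_one]; exact ha
  | m + 1 => by
    have h1 := mulPA_sub_mem_near h (itA W a m).2 (zero_mem _) m.succ_pos
      (by rw [sub_zero]; exact itA_mem h a ha m)
    rwa [mulPA_zero, sub_zero, ← itA_succ] at h1

theorem itA_addA (hΔ : W.Δ ≠ 0) (a b : {a : AInf p // a ∈ (defIdeal p).radical}) :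
    ∀ m, (itA W ⟨addA W a.2 b.2, evA_radical _ (constantCoeff_fgAdd _)⟩ m : AInf p) =
      addA W (itA W a m).2 (itA W b m).2
  | 0 => rfl
  | m + 1 => by
    rw [itA_succ, mulPA_congr _ (itA_addA hΔ a b m)]
    exact mulPA_addA W hΔ _ _

theorem ainfGal_itA (g : G) (a : {a : AInf p // a ∈ (defIdeal p).radical}) :
    ∀ m, ainfGal g (itA W a m : AInf p) = (itA W ⟨ainfGal g a.1, ainfGal_radical g a.2⟩ m : AInf p)
  | 0 => rfl
  | m + 1 => by
    have e : ainfGal g (mulPA W (itA W a m).2) = mulPA W (ainfGal_radical g (itA W a m).2) :=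
      map_evz _ _ _ _ (ainfGal g) (ainfGal_zpHom g) (fun _ => rfl) _ _
    rw [itA_succ, itA_succ, e, mulPA_congr _ (ainfGal_itA g a m)]

theorem itA_congr {a b : {a : AInf p // a ∈ (defIdeal p).radical}} (e : (a : AInf p) = b) (m : ℕ) :
    itA W a m = itA W b m := by rw [Subtype.ext e]

/-! ### The sequence and its limit -/

/-- A sequence of iterates in growing powers of the ideal of definition. -/
structure IsLogSeq (W : WeierstrassCurve ℤ) (w : ℕ → AInf p) : Prop where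
  rad : ∀ m, w m ∈ (defIdeal p).radical
  mem : ∀ m, w m ∈ defIdeal p ^ (m + 1)
  step : ∀ m, w (m + 1) = mulPA W (rad m)

theorem isLogSeq_itA (hΔ : W.Δ ≠ 0) (a : {a : AInf p // a ∈ (defIdeal p).radical}) {M : ℕ}
    (hM : (itA W a M : AInf p) ∈ defIdeal p) : IsLogSeq W fun m => (itA W a (M + m) : AInf p) where
  rad m := (itA W a (M + m)).2
  mem m := by
    induction m with
    | zero => rwa [zero_add, pow_one, add_zero]
    | succ m ih =>
      have h1 := mulPA_sub_mem W hΔ (itA W a (M + m)).2 (zero_mem _) m.succ_pos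
        (by rw [sub_zero]; exact ih)
      rwa [mulPA_zero, sub_zero] at h1
  step _ := rfl

theorem sub_mul_mem {w : AInf p} (hw : w ∈ (defIdeal p).radical) :
    mulPA W hw - (p : AInf p) * w ∈ span {w} ^ 2 := by
  set e := evA (fun _ : Unit => w) (fun _ => hw)
  have h1 : (varIdeal Unit ℤ_[p]).map e ≤ span {w} := by
    refine Ideal.map_le_iff_le_comap.2 (Ideal.span_le.2 ?_)
    rintro _ ⟨⟨⟩, rfl⟩
    show e (MvPowerSeries.X ()) ∈ span {w}
    rw [evz_X]
    exact mem_span_singleton_self _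
  have h2 := Ideal.mem_map_of_mem e (mulN_sub_mem (wZp p W) p)
  rw [Ideal.map_pow] at h2
  have h3 := Ideal.pow_right_mono h1 2 h2
  rwa [map_sub, map_mul, map_natCast, PowerSeries.X, evz_X] at h3

theorem addA_sub_mem {a b : AInf p} (ha : a ∈ (defIdeal p).radical)
    (hb : b ∈ (defIdeal p).radical) {J : Ideal (AInf p)} (haJ : a ∈ J) (hbJ : b ∈ J) :
    addA W ha hb - (a + b) ∈ J ^ 2 := by
  set e := evA ![a, b] (pair_radical ha hb)
  have h1 : (varIdeal (Fin 2) ℤ_[p]).map e ≤ J := by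
    refine Ideal.map_le_iff_le_comap.2 (Ideal.span_le.2 ?_)
    rintro _ ⟨i, rfl⟩
    show e (MvPowerSeries.X i) ∈ J
    rw [evz_X]
    fin_cases i <;> simpa
  have h2 := Ideal.mem_map_of_mem e (fgAdd_sub_mem (wZp p W))
  rw [Ideal.map_pow] at h2
  have h3 := Ideal.pow_right_mono h1 2 h2
  rw [map_sub, map_add, evz_X, evz_X] at h3
  exact h3

theorem IsLogSeq.step_mem {w : ℕ → AInf p} (hw : IsLogSeq W w) (m : ℕ) :
    w (m + 1) - (p : AInf p) * w m ∈ defIdeal p ^ (2 * (m + 1)) := by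
  rw [hw.step, mul_comm 2, pow_mul]
  exact Ideal.pow_right_mono ((span_singleton_le_iff_mem _).2 (hw.mem m)) 2 (sub_mul_mem _)

/-- The terms `w m / p ^ m`. -/
def logTerm (w : ℕ → AInf p) (m : ℕ) : BPlus p :=
  qpHom p ((p : ℚ_[p])⁻¹ ^ m) * aInfB p (w m)

theorem pow_mul_logTerm (w : ℕ → AInf p) (m : ℕ) :
    (p : BPlus p) ^ m * logTerm w m = aInfB p (w m) := by
  rw [logTerm, ← mul_assoc, ← map_natCast (qpHom p), ← map_pow, ← map_mul, ← mul_pow,
    mul_inv_cancel₀ (Nat.cast_ne_zero.2 hp.out.ne_zero), one_pow, map_one, one_mul]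

/-- `p ^ n y` is a multiple of `p ^ k` of an integral element modulo the `n`-th power of `t`. -/
def Sml (n k : ℕ) (y : BPlus p) : Prop :=
  ∃ a : AInf p, (p : BQuot p n) ^ n * mkQ p n y = (p : BQuot p n) ^ k * imgA p n a

theorem Sml.add {n k : ℕ} {x y : BPlus p} (hx : Sml n k x) (hy : Sml n k y) :
    Sml n k (x + y) := by
  obtain ⟨a, ha⟩ := hx
  obtain ⟨b, hb⟩ := hy
  exact ⟨a + b, by rw [map_add, mul_add, ha, hb, map_add, mul_add]⟩

theorem Sml.neg {n k : ℕ} {x : BPlus p} (hx : Sml n k x) : Sml n k (-x) := by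
  obtain ⟨a, ha⟩ := hx
  exact ⟨-a, by rw [map_neg, mul_neg, ha, map_neg, mul_neg]⟩

theorem Sml.sub {n k : ℕ} {x y : BPlus p} (hx : Sml n k x) (hy : Sml n k y) :
    Sml n k (x - y) := by
  rw [sub_eq_add_neg]
  exact hx.add hy.neg

theorem Sml.mono {n k k' : ℕ} {x : BPlus p} (hx : Sml n k' x) (h : k ≤ k') : Sml n k x := by
  obtain ⟨a, ha⟩ := hx
  refine ⟨(p : AInf p) ^ (k' - k) * a, ?_⟩
  rw [ha, map_mul, ← natCast_pow_eq_imgA, ← mul_assoc, ← pow_add, Nat.add_sub_cancel' h]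

/-- The basic source of small elements. -/
theorem sml_of_mem {k : ℕ} {d : AInf p} (hd : d ∈ defIdeal p ^ (2 * k)) {y : BPlus p}
    (hy : (p : BPlus p) ^ k * y = aInfB p d) (n : ℕ) : Sml n k y := by
  have h1 : (p : AInf p) ^ n * d ∈ defIdeal p ^ (2 * k + n) := by
    rw [pow_add (defIdeal p), mul_comm ((p : AInf p) ^ n)]
    exact Ideal.mul_mem_mul hd p_pow_mem
  obtain ⟨_, ha, _, hb, e⟩ := Submodule.mem_sup.1 (defIdeal_pow_le (2 * k) n h1)
  obtain ⟨a, rfl⟩ := mem_span_singleton.1 ha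
  obtain ⟨b, rfl⟩ := mem_span_singleton.1 hb
  refine ⟨a, (isUnit_natCast_pow n k).mul_left_cancel ?_⟩
  have h2 := congrArg (imgA p n) e
  rw [map_add, imgA_eq_zero_iff.2 (dvd_mul_right (xi p ^ n) b), add_zero, map_mul, map_mul,
    ← natCast_pow_eq_imgA, ← natCast_pow_eq_imgA, ← mkQ_aInfB, ← mkQ_aInfB, ← hy, map_mul,
    map_pow, map_natCast, mkQ_aInfB] at h2
  rw [mul_left_comm, ← h2, ← mul_assoc, ← pow_add, two_mul]

theorem IsLogSeq.sml_step {w : ℕ → AInf p} (hw : IsLogSeq W w) (n m : ℕ) :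
    Sml n (m + 1) (logTerm w (m + 1) - logTerm w m) := by
  refine sml_of_mem (hw.step_mem m) ?_ n
  rw [mul_sub, pow_mul_logTerm, pow_succ', mul_assoc, pow_mul_logTerm, map_sub, map_mul,
    map_natCast]

theorem eq_of_forall_sml {x y : BPlus p} (h : ∀ n k, Sml n k (x - y)) : x = y := by
  refine sub_eq_zero.1 (eq_zero_of_dvd_completion _ _ bdrIdeal_eq fun n => ?_)
  change piBDR p ^ n ∣ _
  rw [← piMu_pow_dvd_iff, ← mkQ_eq_zero_iff]
  exact eq_zero_of_bdd (c := n) (h n)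

/-- `L` is the limit of the terms. -/
def IsLogLim (w : ℕ → AInf p) (L : BPlus p) : Prop := ∀ n k, Sml n k (L - logTerm w k)

theorem exists_series (c : ℕ → AInf p) :
    ∃ S : AInf p, ∀ m, (p : AInf p) ^ m ∣ S - ∑ i ∈ range m, (p : AInf p) ^ (i + 1) * c i := by
  obtain ⟨S, hS⟩ := IsPrecomplete.prec
    (inferInstance : IsPrecomplete (span {(p : AInf p)}) (AInf p))
    (f := fun m => ∑ i ∈ range m, (p : AInf p) ^ (i + 1) * c i) fun {m l} hml => by
      rw [SModEq.sub_mem, smul_eq_mul, Ideal.mul_top, span_singleton_pow, mem_span_singleton,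
        ← dvd_neg, neg_sub, ← Finset.sum_Ico_eq_sub _ hml]
      exact Finset.dvd_sum fun i hi => Dvd.dvd.mul_right
        (pow_dvd_pow _ (by have := (Finset.mem_Ico.1 hi).1; omega)) _
  refine ⟨S, fun m => ?_⟩
  have h := hS m
  rwa [SModEq.sub_mem, smul_eq_mul, Ideal.mul_top, span_singleton_pow, mem_span_singleton,
    ← dvd_neg, neg_sub] at h

theorem IsLogSeq.exists_limit_level {w : ℕ → AInf p} (hw : IsLogSeq W w) (n : ℕ) :
    ∃ y : BPlus p, ∀ k, Sml n k (y - logTerm w k) := by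
  choose a ha using fun i => hw.sml_step n i
  obtain ⟨S, hS⟩ := exists_series a
  refine ⟨logTerm w 0 + qpHom p ((p : ℚ_[p])⁻¹ ^ n) * aInfB p S, fun k => ?_⟩
  obtain ⟨c, hc⟩ := hS k
  refine ⟨c, ?_⟩
  have htel : ∀ m, (p : BQuot p n) ^ n * mkQ p n (logTerm w m - logTerm w 0) =
      imgA p n (∑ i ∈ range m, (p : AInf p) ^ (i + 1) * a i) := by
    intro m
    induction m with
    | zero => simp
    | succ m ih =>
      rw [sum_range_succ, map_add, ← ih, map_mul, ← natCast_pow_eq_imgA, ← ha m, ← mul_add,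
        ← map_add]
      congr 2
      ring
  have hpn : (p : BQuot p n) ^ n * mkQ p n (qpHom p ((p : ℚ_[p])⁻¹ ^ n)) = 1 := by
    rw [← map_natCast ((mkQ p n).comp (qpHom p)), ← map_pow, RingHom.comp_apply, ← map_mul,
      ← map_mul, ← mul_pow, mul_inv_cancel₀ (Nat.cast_ne_zero.2 hp.out.ne_zero), one_pow, map_one,
      map_one]
  rw [add_sub_right_comm, ← neg_sub (logTerm w k), map_add, mul_add, map_neg, mul_neg, htel,
    map_mul, ← mul_assoc, hpn, one_mul, mkQ_aInfB, natCast_pow_eq_imgA, ← map_mul, ← hc, map_sub]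
  ring

theorem IsLogSeq.exists_lim {w : ℕ → AInf p} (hw : IsLogSeq W w) :
    ∃ L, IsLogLim w L := by
  choose f hf using hw.exists_limit_level
  have hcompat : ∀ m n, m ≤ n → piBDR p ^ m ∣ f m - f n := fun m n hmn => by
    rw [← piMu_pow_dvd_iff, ← mkQ_eq_zero_iff]
    refine eq_zero_of_bdd (c := n) fun k => ?_
    obtain ⟨a, ha⟩ := hf m k
    obtain ⟨b, hb⟩ := hf n k
    have hb' : mkQ p m ((p : BPlus p) ^ n * (f n - logTerm w k) - (p : BPlus p) ^ k * aInfB p b)
        = 0 := by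
      refine mkQ_eq_zero_iff.2 ((pow_dvd_pow _ hmn).trans (mkQ_eq_zero_iff.1 ?_))
      rw [map_sub, map_mul, map_mul, map_pow, map_pow, map_natCast, mkQ_aInfB, hb, sub_self]
    rw [map_sub, map_mul, map_mul, map_pow, map_pow, map_natCast, sub_eq_zero, mkQ_aInfB] at hb'
    refine ⟨(p : AInf p) ^ (n - m) * a - b, ?_⟩
    rw [map_sub (mkQ p m)] at ha hb'
    rw [map_sub (mkQ p m), map_sub (imgA p m), map_mul (imgA p m), ← natCast_pow_eq_imgA,
      ← Nat.sub_add_cancel hmn, pow_add, Nat.add_sub_cancel]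
    rw [← Nat.sub_add_cancel hmn, pow_add] at hb'
    linear_combination (p : BQuot p m) ^ (n - m) * ha - hb'
  obtain ⟨L, hL⟩ := exists_limit_bPlus f hcompat
  refine ⟨L, fun n k => ?_⟩
  obtain ⟨a, ha⟩ := hf n k
  refine ⟨a, ?_⟩
  have h0 : mkQ p n (L - f n) = 0 := mkQ_eq_zero_iff.2 (piMu_pow_dvd_iff.2 (hL n))
  rw [← ha, ← sub_add_sub_cancel L (f n), map_add, h0, zero_add]

theorem IsLogLim.unique {w : ℕ → AInf p} {L L' : BPlus p} (h : IsLogLim w L)
    (h' : IsLogLim w L') : L = L' :=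
  eq_of_forall_sml fun n k => by
    rw [← sub_sub_sub_cancel_right L L' (logTerm w k)]
    exact (h n k).sub (h' n k)

theorem IsLogLim.bdd {w : ℕ → AInf p} {L : BPlus p} (h : IsLogLim w L) (n : ℕ) :
    Bdd p n n (mkQ p n L) := by
  obtain ⟨a, ha⟩ := h n 0
  refine ⟨a + (p : AInf p) ^ n * w 0, ?_⟩
  rw [← sub_add_cancel L (logTerm w 0), map_add, mul_add, ha, pow_zero, one_mul, map_add,
    map_mul (imgA p n), natCast_pow_eq_imgA, logTerm, pow_zero, map_one, one_mul, mkQ_aInfB]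

theorem IsLogLim.gal {w : ℕ → AInf p} {L : BPlus p} (h : IsLogLim w L) (g : G) :
    IsLogLim (fun m => ainfGal g (w m)) (g • L) := fun n k => by
  obtain ⟨a, ha⟩ := h n k
  refine ⟨ainfGal g a, ?_⟩
  have h1 := congrArg (galQ g n) ha
  rw [map_mul, map_mul, map_pow, map_pow, map_natCast, galQ_mkQ, galQ_imgA, smul_sub] at h1
  rw [← h1, logTerm, logTerm, smul_mul', smul_qpHom, smul_aInfB]

theorem IsLogLim.add {w w' : ℕ → AInf p} (hw : IsLogSeq W w)
    (hw' : IsLogSeq W w') {L L' M : BPlus p} (hL : IsLogLim w L) (hL' : IsLogLim w' L')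
    (hM : IsLogLim (fun m => addA W (hw.rad m) (hw'.rad m)) M) : M = L + L' :=
  eq_of_forall_sml fun n k => by
    have e : M - (L + L') = (M - logTerm (fun m => addA W (hw.rad m) (hw'.rad m)) k) -
        (L - logTerm w k) - (L' - logTerm w' k) +
        (logTerm (fun m => addA W (hw.rad m) (hw'.rad m)) k - logTerm w k - logTerm w' k) := by
      ring
    rw [e]
    refine (((hM n k).sub (hL n k)).sub (hL' n k)).add ?_
    refine sml_of_mem (d := addA W (hw.rad k) (hw'.rad k) - (w k + w' k)) ?_ ?_ n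
    · refine Ideal.pow_le_pow_right (by omega : 2 * k ≤ (k + 1) * 2) ?_
      rw [pow_mul]
      exact addA_sub_mem _ _ (hw.mem k) (hw'.mem k)
    · simp only [mul_sub, pow_mul_logTerm, map_sub, map_add]
      ring

theorem norm_theta_le {w : ℕ → AInf p} {L : BPlus p} (h : IsLogLim w L)
    (h0 : thetaPlus p L = 0) (k : ℕ) :
    ‖((theta p (w k) : OC p) : C)‖ * ‖(p : C)‖ ≤ ‖(p : C)‖ ^ (2 * k) := by
  obtain ⟨a, ha⟩ := h 1 k
  have h1 : piMu p ∣ (p : BPlus p) ^ 1 * (L - logTerm w k) - (p : BPlus p) ^ k * aInfB p a := by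
    rw [← pow_one (piMu p), ← mkQ_eq_zero_iff, map_sub, map_mul, map_mul, map_pow, map_pow,
      map_natCast, mkQ_aInfB, ha, sub_self]
  have h2 := piMu_dvd_iff.1 h1
  rw [map_sub, map_mul, map_mul, map_pow, map_pow, map_natCast, map_sub, h0, zero_sub,
    thetaPlus_aInfB, sub_eq_zero, pow_one, logTerm, map_mul, thetaPlus_qpHom, map_pow, map_inv₀,
    map_natCast, thetaPlus_aInfB] at h2
  have hp0 : 0 < ‖(p : C)‖ := norm_p_pos_C
  have h3 := congrArg (fun x : C => ‖x‖) h2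
  simp only [norm_mul, norm_neg, norm_pow, norm_inv] at h3
  have h4 : ‖(p : C)‖ * ((‖(p : C)‖⁻¹) ^ k * ‖((theta p (w k) : OC p) : C)‖) ≤ ‖(p : C)‖ ^ k :=
    h3.trans_le (mul_le_of_le_one_right (by positivity) (norm_OC_le _))
  rw [inv_pow] at h4
  calc ‖((theta p (w k) : OC p) : C)‖ * ‖(p : C)‖
      = ‖(p : C)‖ ^ k *
          (‖(p : C)‖ * ((‖(p : C)‖ ^ k)⁻¹ * ‖((theta p (w k) : OC p) : C)‖)) := by
        field_simp
    _ ≤ ‖(p : C)‖ ^ k * ‖(p : C)‖ ^ k := mul_le_mul_of_nonneg_left h4 (by positivity)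
    _ = ‖(p : C)‖ ^ (2 * k) := by rw [← pow_add, two_mul]

/-- **A vanishing image makes the iterate vanish.** -/
theorem IsLogSeq.theta_one_eq_zero {w : ℕ → AInf p} (hw : IsLogSeq W w) {L : BPlus p}
    (h : IsLogLim w L) (h0 : thetaPlus p L = 0) : theta p (w 1) = 0 := by
  by_contra hne
  have hp0 : 0 < ‖(p : C)‖ := norm_p_pos_C
  set θ : ℕ → C := fun k => ((theta p (w k) : OC p) : C)
  have hpos : 0 < ‖θ 1‖ := norm_pos_iff.2 fun e => hne (Subtype.ext e)
  have hsmall : ∀ j, ‖θ (1 + j)‖ ≤ ‖(p : C)‖ ^ 2 := fun j => by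
    have h1 := theta_mem_span (hw.mem (1 + j))
    rw [pow_dvd_OC] at h1
    exact h1.trans (pow_le_pow_of_le_one hp0.le norm_p_C_lt.le (by omega))
  have hgeo : ∀ j, ‖θ (1 + j)‖ = ‖(p : C)‖ ^ j * ‖θ 1‖ := by
    intro j
    induction j with
    | zero => rw [pow_zero, one_mul, add_zero]
    | succ j ih =>
      obtain ⟨c, hc⟩ : ∃ c, w (1 + j + 1) = (p : AInf p) * w (1 + j) + w (1 + j) ^ 2 * c := by
        have h1 := sub_mul_mem (W := W) (hw.rad (1 + j))
        rw [span_singleton_pow, mem_span_singleton] at h1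
        obtain ⟨c, hc⟩ := h1
        exact ⟨c, by rw [hw.step, ← hc, add_sub_cancel]⟩
      have e : θ (1 + (j + 1)) =
          (p : C) * θ (1 + j) + θ (1 + j) ^ 2 * ((theta p c : OC p) : C) := by
        show ((theta p (w (1 + (j + 1))) : OC p) : C) = _
        rw [← add_assoc, hc]
        simp [θ]
      have hθ0 : 0 < ‖θ (1 + j)‖ := by rw [ih]; positivity
      have hlt : ‖θ (1 + j) ^ 2 * ((theta p c : OC p) : C)‖ < ‖(p : C) * θ (1 + j)‖ := by
        rw [norm_mul, norm_mul, norm_pow]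
        refine (mul_le_of_le_one_right (by positivity) (norm_OC_le _)).trans_lt ?_
        rw [sq]
        refine mul_lt_mul_of_pos_right ((hsmall j).trans_lt ?_) hθ0
        exact pow_lt_self_of_lt_one₀ hp0 norm_p_C_lt one_lt_two
      rw [e, IsUltrametricDist.norm_add_eq_max_of_norm_ne_norm hlt.ne', max_eq_left hlt.le,
        norm_mul, ih, pow_succ']
      ring
  have hle : ∀ j, ‖θ 1‖ ≤ ‖(p : C)‖ ^ j := fun j => by
    have h1 := norm_theta_le h h0 (1 + j)
    change ‖θ (1 + j)‖ * _ ≤ _ at h1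
    rw [hgeo] at h1
    refine le_of_mul_le_mul_left ?_ (pow_pos hp0 (j + 1))
    calc ‖(p : C)‖ ^ (j + 1) * ‖θ 1‖ = ‖(p : C)‖ ^ j * ‖θ 1‖ * ‖(p : C)‖ := by ring
      _ ≤ ‖(p : C)‖ ^ (2 * (1 + j)) := h1
      _ ≤ ‖(p : C)‖ ^ (j + 1 + j) := pow_le_pow_of_le_one hp0.le norm_p_C_lt.le (by omega)
      _ = ‖(p : C)‖ ^ (j + 1) * ‖(p : C)‖ ^ j := pow_add _ _ _
  exact hpos.not_ge (ge_of_tendsto'
    (tendsto_pow_atTop_nhds_zero_of_lt_one hp0.le norm_p_C_lt) hle)

/-- **The logarithm of a family of systems.** -/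
theorem exists_log (h : IsNear π W V) {z : (Fin 2 → ℤ_[p]) → ℕ → AInf p}
    (hz : ∀ v, IsLiftSys W (z v)) (hzI : ∀ v, z v 0 ∈ nearI π)
    (hadd : ∀ v v', z (v + v') 0 = addA W ((hz v).rad 0) ((hz v').rad 0)) {U : Subgroup G}
    {R : G → Matrix (Fin 2) (Fin 2) ℤ_[p]}
    (hgal : ∀ σ ∈ U, ∀ v, ainfGal σ (z v 0) = z (Matrix.mulVec (R σ) v) 0) :
    ∃ (L : (Fin 2 → ℤ_[p]) → BPlus p) (M : ℕ), (∀ v v', L (v + v') = L v + L v') ∧
      (∀ (a : ℤ_[p]) v, L (a • v) = qpHom p (a : ℚ_[p]) * L v) ∧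
      (∀ σ ∈ U, ∀ v, σ • L v = L (Matrix.mulVec (R σ) v)) ∧
      ∀ v, thetaPlus p (L v) = 0 → theta p (itA W ⟨z v 0, (hz v).rad 0⟩ M : AInf p) = 0 := by
  obtain ⟨N, -, hN⟩ := exists_nearI_pow_le h
  set a : (Fin 2 → ℤ_[p]) → {a : AInf p // a ∈ (defIdeal p).radical} := fun v =>
    ⟨z v 0, (hz v).rad 0⟩
  have hw : ∀ v, IsLogSeq W fun m => (itA W (a v) (N + m) : AInf p) := fun v =>
    isLogSeq_itA h.Δ_ne _
      (hN (Ideal.pow_le_pow_right N.le_succ (itA_mem h (a v) (hzI v) N)))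
  choose L hL using fun v => (hw v).exists_lim
  have hLadd : ∀ v v', L (v + v') = L v + L v' := fun v v' => by
    refine IsLogLim.add (hw v) (hw v') (hL v) (hL v') ?_
    have e : (fun m => addA W ((hw v).rad m) ((hw v').rad m)) =
        fun m => (itA W (a (v + v')) (N + m) : AInf p) := funext fun m => by
      refine ((itA_addA h.Δ_ne (a v) (a v') (N + m)).symm.trans ?_)
      exact congrArg Subtype.val (itA_congr (hadd v v').symm _)
    rw [e]
    exact hL _
  refine ⟨L, N + 1, hLadd, fun c v => ?_, fun σ hσ v => ?_, fun v h0 => ?_⟩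
  · exact smul_of_bdd (AddMonoidHom.mk' L hLadd)
      (fun n => ⟨n, fun v => (hL v).bdd n⟩) c v
  · refine IsLogLim.unique ((hL v).gal σ) ?_
    have e : (fun m => ainfGal σ (itA W (a v) (N + m) : AInf p)) =
        fun m => (itA W (a (Matrix.mulVec (R σ) v)) (N + m) : AInf p) := funext fun m => by
      rw [ainfGal_itA]
      exact congrArg Subtype.val (itA_congr (hgal σ hσ v) _)
    rw [e]
    exact hL _
  · exact (hw v).theta_one_eq_zero (hL v) h0

end FA.EDR
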