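import Fermat.Agent.EveryDeRham.Supersingular
import Fermat.Agent.PotentialDeRham.Line
import Fermat.Agent.SupersingularDeRham.DeRham

/-!
# Potentially supersingular reduction is de Rham

The parameters of the torsion on the congruent good equation give the family of systems, and the
open subgroup fixing the change of variables permutes them.
-/

set_option autoImplicit false
set_option linter.unusedSectionVars false
set_option linter.style.haveILetI false

noncomputable section

open Ideal Matrix WeierstrassCurve FA.TateSen FA.BDR FA.BDRCoh FA.Sen FA.PadicHodge FA.Frob FA.EC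
  FA.Local FA.RT.Tate FA.CurveDR FA.OrdDR FA.PotDR FA.SSDR
open scoped WeierstrassCurve.Affine Classical

namespace FA.EDR

attribute [local irreducible] fgAdd wSeries mulN

variable {p : ℕ} [hp : Fact p.Prime]

local notation "Cp" => ℂ_[p]
local notation "G" => PadicAlgCl p ≃ₐ[ℚ_[p]] PadicAlgCl p
local notation "Qb" => AlgebraicClosure ℚ

/-- The parameter of a point of an equation over `ℚ̄`. -/
def parV {V₀ : WeierstrassCurve (AlgebraicClosure ℚ)} : V₀.toAffine.Point → ℂ_[p]
  | .zero => 0
  | .some x y _ => -embC p x / embC p y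

/-- A point in the kernel of reduction comes from its parameter. -/
theorem exists_par {V₀ : WeierstrassCurve Qb} [V₀.IsElliptic] {V : WeierstrassCurve (OC p)}
    [(V.map (ocC p)).IsElliptic] (hc : V₀.map (embC p) = V.map (ocC p))
    {P : V₀.toAffine.Point} (hP : E1 (padicPlace p).valuation V₀.toAffine P) :
    ∃ (t : OC p) (ht : t ∈ (span {(p : OC p)}).radical),
      (t : Cp) = parV P ∧ mapHom (embC p) hc P = ptG V ht := by
  rcases P with _ | ⟨x, y, h⟩
  · exact ⟨0, zero_mem _, rfl, (map_zero (mapHom (embC p) hc)).trans (ptG_zero V).symm⟩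
  obtain ⟨t, ht, h1, h2⟩ := exists_ptG V (nonsingular_mapHom (embC p) hc h)
    (one_lt_norm_of_e1 ((e1_some h).1 hP))
  exact ⟨t, ht, h1, h2⟩

variable {W : WeierstrassCurve ℤ} [(ratCurve W).IsElliptic]

/-- Automorphisms fixing the change of variables move the parameters. -/
theorem parV_smul {D : VariableChange Qb} {V₀ : WeierstrassCurve Qb} [V₀.IsElliptic]
    [((ratCurve W)⁄Qb).IsElliptic] (hV : D • ((ratCurve W)⁄Qb) = V₀) {τ : G}
    (hτ : τ ∈ fixGal p (coeffSet D)) (P : Pts W) :
    parV (p := p) ((vcEquiv D hV).symm (localGaloisToGlobal p τ • P)) =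
      gal τ (parV ((vcEquiv D hV).symm P)) := by
  obtain ⟨Q, rfl⟩ := (vcEquiv D hV).surjective P
  rw [AddEquiv.symm_apply_apply]
  set σ := localGaloisToGlobal p τ
  rcases Q with _ | ⟨x, y, h⟩
  · rw [← Affine.Point.zero_def, map_zero, show σ • (0 : Pts W) = 0 from gal_smul_zero _ σ,
      map_zero]
    exact (map_zero (gal τ)).symm
  rw [vcEquiv_some]
  obtain ⟨h', he⟩ := smul_some (σ := σ) (ratCurve W)
    (Affine.equation_iff_nonsingular.mp ((equation_vc D hV x y).mpr h.1))
  rw [he]
  rcases hR : (vcEquiv D hV).symm (Affine.Point.some _ _ h') with _ | ⟨x', y', hxy'⟩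
  · have h2 := congrArg (vcEquiv D hV) hR
    rw [AddEquiv.apply_symm_apply, ← Affine.Point.zero_def, map_zero] at h2
    exact absurd h2 (Affine.Point.some_ne_zero _)
  have h2 := congrArg (vcEquiv D hV) hR
  rw [AddEquiv.apply_symm_apply, vcEquiv_some] at h2
  obtain ⟨hx, hy⟩ := Affine.Point.some.inj h2
  have hu : σ (D.u : Qb) = D.u := apply_of_mem_fixGal hτ (by simp)
  have hr : σ D.r = D.r := apply_of_mem_fixGal hτ (by simp)
  have hs : σ D.s = D.s := apply_of_mem_fixGal hτ (by simp)
  have ht : σ D.t = D.t := apply_of_mem_fixGal hτ (by simp)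
  simp only [vcX, map_add, map_mul, map_pow, hu, hr] at hx
  have ex : σ x = x' := mul_left_cancel₀ (pow_ne_zero 2 D.u.ne_zero) (add_right_cancel hx)
  simp only [vcY, map_add, map_mul, map_pow, hu, hs, ht, ex] at hy
  have ey : σ y = y' := mul_left_cancel₀ (pow_ne_zero 3 D.u.ne_zero)
    (add_right_cancel (add_right_cancel hy))
  show -embC p x' / embC p y' = gal τ (-embC p x / embC p y)
  rw [map_div₀, map_neg, gal_embC, gal_embC, ← ex, ← ey]

/-- Parameters of a compatible system congruent to zero vanish. -/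
theorem eq_zero_of_mem_span {π : OC p} {W₀ : WeierstrassCurve ℤ} {V : WeierstrassCurve (OC p)}
    (h : IsNear π W₀ V) {t : ℕ → OC p} (ht : ∀ n, t n ∈ (span {(p : OC p)}).radical)
    (hc : ∀ n, evI (fun _ : Unit => t (n + 1)) (fun _ => ht (n + 1)) (mulN V p) = t n)
    (h0 : ∀ n, t n ∈ span {π}) (n : ℕ) : t n = 0 := by
  have key : ∀ k n, t n ∈ span {π} ^ (k + 1) := by
    intro k
    induction k with
    | zero => intro n; rw [zero_add, pow_one]; exact h0 n
    | succ k ih =>
      intro n
      set e := evI (fun _ : Unit => t (n + 1)) fun _ => ht (n + 1)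
      have h1 : (varIdeal Unit (OC p)).map e ≤ span {t (n + 1)} := by
        refine Ideal.map_le_iff_le_comap.2 (Ideal.span_le.2 ?_)
        rintro _ ⟨⟨⟩, rfl⟩
        show e (MvPowerSeries.X ()) ∈ span {t (n + 1)}
        rw [evz_X]
        exact mem_span_singleton_self _
      have h2 := Ideal.mem_map_of_mem e (mulN_sub_mem V p)
      rw [Ideal.map_pow] at h2
      have h3 := Ideal.pow_right_mono (h1.trans ((span_singleton_le_iff_mem _).2 (ih (n + 1)))) 2
        (Ideal.pow_right_mono (le_refl _) 2 h2)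
      rw [map_sub, hc n, map_mul, map_natCast, PowerSeries.X, evz_X, ← pow_mul] at h3
      rw [← sub_add_cancel (t n) ((p : OC p) * t (n + 1))]
      refine add_mem (Ideal.pow_le_pow_right (by omega) h3) ?_
      rw [pow_succ']
      exact Ideal.mul_mem_mul (mem_span_singleton.2 h.dvd_p) (ih (n + 1))
  refine Subtype.ext (norm_le_zero_iff.1 (ge_of_tendsto'
    (tendsto_pow_atTop_nhds_zero_of_lt_one (norm_nonneg (π : Cp)) h.norm_lt) fun k => ?_))
  have h4 := Ideal.pow_le_pow_right (Nat.le_succ k) (key k n)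
  rw [span_singleton_pow, mem_span_singleton] at h4
  obtain ⟨c, hc'⟩ := h4
  rw [hc', MulMemClass.coe_mul, SubmonoidClass.coe_pow, norm_mul, norm_pow]
  exact mul_le_of_le_one_right (by positivity) (norm_OC_le c)

/-- **Potentially supersingular reduction gives a de Rham representation of weights `1`, `0`.** -/
theorem isDeRham_of_potSupersingular (hp' : PotSupersingular p W) (B : TateBasis p W) :
    IsDeRham (curveAtP B) ∧ ∃ P : (Matrix (Fin 2) (Fin 2) Cp)ˣ, ∀ τ,
      FA.Sen.conj (cpRep (curveAtP B)) P τ =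
        Matrix.diagonal fun i => twist p (![1, 0] i) τ := by
  obtain ⟨D, VA, W₀, hmap, hΔA, hres, hs, hall⟩ := exists_congruent_model hp'
  haveI : (ratCurve W₀).IsElliptic := ratCurve_isElliptic_of_Δ (Δ_ne_zero_of_good hs.1)
  haveI : ((ratCurve W)⁄Qb).IsElliptic :=
    inferInstanceAs ((ratCurve W).map (algebraMap ℚ Qb)).IsElliptic
  set V₀ := VA.map (padicPlace p).subtype
  haveI : V₀.IsElliptic := (isGoodEq_of_map hmap hΔA).isElliptic
  set V := VA.map (toOC p)
  have hc : V₀.map (embC p) = V.map (ocC p) := by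
    rw [WeierstrassCurve.map_map, WeierstrassCurve.map_map]
    rfl
  haveI : (V.map (ocC p)).IsElliptic := hc ▸ inferInstance
  obtain ⟨π, hπ⟩ := exists_isNear hs.Δ_ne_zero hres
  set eV := vcEquiv D hmap.symm
  set Ψ : Pts W →+ (V.map (ocC p)).toAffine.Point :=
    (mapHom (embC p) hc).comp eV.symm.toAddMonoidHom
  have hΨinj : Function.Injective Ψ :=
    (mapHom_injective (embC p) hc).comp eV.symm.injective
  have hex : ∀ v n, ∃ (t : OC p) (ht : t ∈ (span {(p : OC p)}).radical),
      (t : Cp) = parV (eV.symm (B.φ n v)) ∧ Ψ (B.φ n v) = ptG V ht := fun v n =>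
    exists_par hc (hall n _ (by rw [← map_nsmul, B.nsmul_phi, map_zero]))
  choose t ht hpar hΨ using hex
  have htc : ∀ v n, evI (fun _ : Unit => t v (n + 1)) (fun _ => ht v (n + 1)) (mulN V p) = t v n :=
    fun v n => ptG_inj V (evI_radical _ (constantCoeff_mulN _ _)) (ht v n) (by
      rw [ptG_mulN V (ht v (n + 1)) p, ← hΨ, ← hΨ, ← map_nsmul, B.compat])
  have hta : ∀ v v' n, evI ![t v n, t v' n] (evO_pair_radical (ht v n) (ht v' n)) (fgAdd V) =
      t (v + v') n := fun v v' n =>
    ptG_inj V (evI_radical _ (constantCoeff_fgAdd _)) (ht _ n) (by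
      rw [← ptG_add V (ht v n) (ht v' n), ← hΨ, ← hΨ, ← hΨ, ← map_add, ← map_add])
  set U := fixGal p (coeffSet D)
  have htg : ∀ σ ∈ U, ∀ v n,
      galO σ (t v n) = t (B.rep (localGaloisToGlobal p σ) *ᵥ v) n := fun σ hσ v n =>
    Subtype.ext (by
      rw [coe_galO, hpar, hpar, ← B.rep_spec]
      exact (parV_smul hmap.symm hσ _).symm)
  have ht0 : ∀ v, t v 0 = 0 := fun v => Subtype.ext (by
    rw [hpar, B.phi_zero_level, map_zero]
    rfl)
  choose z hz using fun v => exists_nearSys hπ (ht v) (htc v)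
  have hz0 : ∀ v, z v 0 ∈ nearI π := fun v => by
    have h1 := (hz v).2 0
    rwa [ht0, sub_zero] at h1
  have hadd : ∀ v v' n, z (v + v') n = addA W₀ ((hz v).1.rad n) ((hz v').1.rad n) := fun v v' n =>
    congrFun ((hz (v + v')).ext hπ (by
      have h1 := (hz v).add hπ (ht v) (ht v') (hz v')
      rw [show (fun n => evI ![t v n, t v' n] (evO_pair_radical (ht v n) (ht v' n)) (fgAdd V)) =
        t (v + v') from funext (hta v v')] at h1
      exact h1)) n
  have hgal : ∀ σ ∈ U, ∀ v n,
      ainfGal σ (z v n) = z (B.rep (localGaloisToGlobal p σ) *ᵥ v) n := fun σ hσ v n =>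
    congrFun (IsNearSys.ext hπ (t := t (B.rep (localGaloisToGlobal p σ) *ᵥ v)) (by
      have h1 := (hz v).gal hπ σ
      rw [show (fun n => galO σ (t v n)) = t (B.rep (localGaloisToGlobal p σ) *ᵥ v) from
        funext (htg σ hσ v)] at h1
      exact h1) (hz _)) n
  have hne : ∃ v, z v ≠ 0 := by
    by_contra hc'
    push Not at hc'
    refine phi_single_ne_zero B 0 (hΨinj ?_)
    have h1 : t (Pi.single 0 1) 1 = 0 := eq_zero_of_mem_span hπ (ht _) (htc _) (fun n => by
      have h2 := (hz (Pi.single 0 1)).2 n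
      rw [hc' (Pi.single 0 1), Pi.zero_apply, map_zero, zero_sub, neg_mem_iff] at h2
      exact h2) 1
    rw [hΨ, map_zero]
    calc ptG V (ht (Pi.single 0 1) 1) = ptG V (zero_mem _) := by congr 1
      _ = 0 := ptG_zero V
  obtain ⟨F, hFa, hFs, hFg, v, hv⟩ := exists_row_of_systems hπ hs (fun v => (hz v).1) hz0 hadd hne
    (U := U) (R := fun σ => B.rep (localGaloisToGlobal p σ)) hgal
  have hsum := eq_sum_single hFa hFs
  obtain ⟨j, hj⟩ : ∃ j, thetaPlus p (F (Pi.single j 1)) ≠ 0 := by
    by_contra hc'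
    push Not at hc'
    refine hv ?_
    rw [hsum v, map_sum]
    exact Finset.sum_eq_zero fun i _ => by rw [map_mul, hc' i, mul_zero]
  refine isDeRham_of_row (isQpRep_curveAtP B) (det_curveAtP B)
    (isOpen_fixGal (S := coeffSet D) (by simp))
    (F := fun i => F (Pi.single i 1)) (fun σ hσ k => ?_) hj
  rw [hFg σ hσ, Matrix.mulVec_single_one, hsum, Fin.sum_univ_two]
  rfl

end FA.EDR
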