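import Fermat.Agent.EveryDeRham.Poles
import Fermat.Agent.EveryDeRham.PotSupersingular

/-!
# Every elliptic curve over `ℚ` is de Rham at every prime

A pole of `j`, potentially ordinary and potentially supersingular reduction exhaust the cases.
-/

set_option autoImplicit false
set_option linter.unusedSectionVars false

noncomputable section

open WeierstrassCurve FA.TateSen FA.BDR FA.Sen FA.PadicHodge FA.CurveDR FA.RT.Tate FA.Frob
open scoped Classical

namespace FA.EDR

variable {p : ℕ} [hp : Fact p.Prime] {W : WeierstrassCurve ℤ} [(ratCurve W).IsElliptic]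

local notation "Cp" => ℂ_[p]

/-- **Every elliptic curve over `ℚ` is de Rham at every prime, with weights `1` and `0`.** -/
theorem isDeRham_curveAtP_any (B : TateBasis p W) :
    IsDeRham (curveAtP B) ∧ ∃ P : (Matrix (Fin 2) (Fin 2) Cp)ˣ, ∀ τ,
      FA.Sen.conj (cpRep (curveAtP B)) P τ =
        Matrix.diagonal fun i => twist p (![1, 0] i) τ := by
  rcases lt_or_ge (padicValRat p (ratCurve W).j) 0 with hj | hj
  · exact isDeRham_of_pole_any hj B
  · by_cases hs : FA.PotDR.PotSupersingular p W
    · exact isDeRham_of_potSupersingular hs B
    · exact FA.PotDR.isDeRham_of_potOrdinary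
        ((FA.PotDR.potOrdinary_or_supersingular hj).2 hs) B

end FA.EDR
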