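import Fermat.Agent.SupersingularDeRham.Group
import Fermat.Agent.SupersingularDeRham.Congr

/-!
# The formal law of a Weierstrass equation is functorial in the coefficients

So congruent equations have congruent formal laws and congruent multiplications.
-/

set_option autoImplicit false
set_option linter.unusedSectionVars false

noncomputable section

open WeierstrassCurve FA.SSDR

namespace FA.EDR

variable {σ : Type*} [Finite σ] {R S : Type*} [CommRing R] [CommRing S] (ψ : R →+* S)
  (W : WeierstrassCurve R)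

theorem map_inv1 {f : MvPowerSeries σ R} (h : MvPowerSeries.constantCoeff f = 1) :
    MvPowerSeries.map ψ (inv1 f) = inv1 (MvPowerSeries.map ψ f) := by
  have h' : MvPowerSeries.constantCoeff (MvPowerSeries.map ψ f) = 1 := by
    rw [MvPowerSeries.constantCoeff_map, h, map_one]
  refine (isUnit_of_constantCoeff h').mul_left_cancel ?_
  rw [mul_inv1 h', ← map_mul, mul_inv1 h, map_one]

theorem map_divDiff (f : PowerSeries R) :
    MvPowerSeries.map ψ (divDiff f) = divDiff (PowerSeries.map ψ f) := by
  ext d
  rw [MvPowerSeries.coeff_map]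
  exact (PowerSeries.coeff_map _ _ _).symm

theorem map_wStep (u : PowerSeries R) :
    PowerSeries.map ψ (wStep W u) = wStep (W.map ψ) (PowerSeries.map ψ u) := by
  simp [wStep]

theorem map_wSeries : PowerSeries.map ψ (wSeries W) = wSeries (W.map ψ) := by
  have h : ∀ k, PowerSeries.map ψ ((wStep W)^[k] 0) = (wStep (W.map ψ))^[k] 0 := fun k => by
    induction k with
    | zero => simp
    | succ k ih =>
      rw [Function.iterate_succ_apply', Function.iterate_succ_apply', map_wStep, ih]
  ext k
  rw [PowerSeries.coeff_map, wSeries, wSeries, PowerSeries.coeff_mk, PowerSeries.coeff_mk,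
    ← h k, PowerSeries.coeff_map]

theorem map_serCurve :
    (serCurve σ W).map (MvPowerSeries.map ψ) = serCurve σ (W.map ψ) := by
  rw [serCurve, serCurve, WeierstrassCurve.map_map, WeierstrassCurve.map_map]
  exact congrArg W.map (RingHom.ext fun r => MvPowerSeries.map_C _ _)

theorem map_wAt (i : σ) : MvPowerSeries.map ψ (wAt W i) = wAt (W.map ψ) i := by
  rw [wAt, wAt, map_comp1, map_wSeries]
  exact comp1_congr _ (MvPowerSeries.map_X _ _) _

theorem map_lamS : MvPowerSeries.map ψ (lamS W) = lamS (W.map ψ) := by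
  rw [lamS, lamS, map_divDiff, map_wSeries]

theorem map_nuS : MvPowerSeries.map ψ (nuS W) = nuS (W.map ψ) := by
  rw [nuS, nuS, map_sub, map_mul, map_wAt, map_lamS, MvPowerSeries.map_X]

theorem map_cubA : MvPowerSeries.map ψ (cubA W) = cubA (W.map ψ) := by
  rw [cubA, cubA, ← map_serCurve ψ W, ← map_lamS]
  simp [lineA]

theorem map_z3S : MvPowerSeries.map ψ (z3S W) = z3S (W.map ψ) := by
  rw [z3S, z3S, ← map_serCurve ψ W, ← map_lamS, ← map_nuS, ← map_cubA,
    ← map_inv1 ψ (constantCoeff_cubA W)]
  simp [lineB, map_ofNat]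

theorem map_w3S : MvPowerSeries.map ψ (w3S W) = w3S (W.map ψ) := by
  rw [w3S, w3S, map_add, map_mul, map_lamS, map_z3S, map_nuS]

theorem map_denS : MvPowerSeries.map ψ (denS W) = denS (W.map ψ) := by
  rw [denS, denS, ← map_serCurve ψ W, ← map_z3S, ← map_w3S]
  simp

theorem map_fgAdd : MvPowerSeries.map ψ (fgAdd W) = fgAdd (W.map ψ) := by
  rw [fgAdd, fgAdd, map_neg, map_mul, map_z3S, map_inv1 ψ (constantCoeff_denS W), map_denS]

theorem map_mulN : ∀ n, PowerSeries.map ψ (mulN W n) = mulN (W.map ψ) n
  | 0 => map_zero (PowerSeries.map ψ)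
  | n + 1 => by
    show MvPowerSeries.map ψ (fAdd W (mulAux W n).2 (MvPowerSeries.constantCoeff_X ())) =
      fAdd (W.map ψ) (mulAux _ n).2 (MvPowerSeries.constantCoeff_X ())
    unfold fAdd
    rw [← map_fgAdd ψ W]
    exact map_subHom ψ _ (g' := ![mulN (W.map ψ) n, MvPowerSeries.X ()])
      (Fin.forall_fin_two.2 ⟨map_mulN n, MvPowerSeries.map_X _ _⟩) _ _

variable {W}

/-- Series with the same reduction differ by multiples of the generator. -/
theorem exists_C_mul {π : R} {f g : MvPowerSeries σ R}
    (h : MvPowerSeries.map (Ideal.Quotient.mk (Ideal.span {π})) f =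
      MvPowerSeries.map (Ideal.Quotient.mk (Ideal.span {π})) g) :
    ∃ c, f - g = MvPowerSeries.C π * c := by
  have hd : ∀ d, ∃ x, MvPowerSeries.coeff d f - MvPowerSeries.coeff d g = π * x := fun d =>
    Ideal.mem_span_singleton.1 (Ideal.Quotient.eq.1 (by
      simpa [MvPowerSeries.coeff_map] using congrArg (MvPowerSeries.coeff d) h))
  choose x hx using hd
  refine ⟨fun d => x d, MvPowerSeries.ext fun d => ?_⟩
  rw [MvPowerSeries.coeff_C_mul, map_sub, hx d]
  rfl

end FA.EDR
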