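import Fermat.Agent.RT.Tate.Mult
import Fermat.Agent.PotentialDeRham.Line

/-!
# The line at a place of multiplicative reduction for `p = 2`

A point twice which lies in the component of the identity lies there or differs from it by the
point `T` of order two. So the torsion of `2`-power order in that component is a line, and inertia
acts trivially on the quotient.
-/

set_option autoImplicit false
set_option linter.unusedSectionVars false
set_option linter.style.haveILetI false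

noncomputable section

open Matrix WeierstrassCurve FA.Local FA.Frob FA.EC FA.RT.Tate
open scoped Pointwise WeierstrassCurve.Affine Classical

namespace FA.EDR

section General

variable {L Γ : Type*} [Field L] [LinearOrderedCommGroupWithZero Γ] {v : Valuation L Γ}
  {V : Affine L}

/-- Only two classes are killed by `2` modulo nonsingular reduction. -/
theorem e0_or_e0_add_T (hN : Node v V) {P : V.Point} (h2 : E0 v V (2 • P)) :
    E0 v V P ∨ E0 v V (P + hN.T) := by
  rcases P with _ | ⟨x, y, h⟩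
  · left; trivial
  by_cases h1 : 1 ≤ v x
  · left; exact h1
  by_cases hle : v x ≤ v V.a₄
  · right; exact hN.e0_add_T_of_le h hle
  exfalso
  have hbr := hN.br_self h (not_le.mp hle) (not_le.mp h1)
  have hT := hN.br_add_T hbr
  set P : V.Point := .some x y h
  set g := v x
  have hg : 0 < g := zero_le.trans_lt (not_le.mp hle)
  rw [two_nsmul] at h2
  rcases lt_trichotomy (v V.a₄) (g * g) with hlt | heq | hgt
  · exact (hN.br_add_same hbr hbr hlt).not_e0 h2
  · have h3 := hN.e0_sub ((hN.add_opp hbr hT).1 (by rw [eq_div_iff hg.ne', ← heq])) h2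
    rw [show P + (P + hN.T) - (P + P) = hN.T by abel] at h3
    exact hN.T_not_e0 h3
  · have h3 := (hN.add_opp hbr hT).2 (by rwa [lt_div_iff₀ hg])
    have h4 := hN.br_add_T h3
    rw [show P + (P + hN.T) + hN.T = P + P + (hN.T + hN.T) by abel, hN.T_add_T, add_zero] at h4
    exact h4.not_e0 h2

end General

variable [Fact (Nat.Prime 2)] {W : WeierstrassCurve ℤ} [(ratCurve W).IsElliptic]
  {q : ℕ} {A : ValuationSubring (AlgebraicClosure ℚ)} {r : AlgebraicClosure ℚ}
  (N : NodeData W q A r)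

/-- The point of order two outside the component of the identity. -/
def nodeT : Pts W := originEquiv ((ratCurve W)⁄(AlgebraicClosure ℚ)) r N.node.T

theorem nodeT_not_mem : nodeT N ∉ N.e0Sub := fun h => N.node.T_not_e0 (N.mem_e0Sub.1 h)

theorem two_nsmul_nodeT : 2 • nodeT N = 0 := by
  rw [nodeT, ← map_nsmul, N.node.two_nsmul_T, map_zero]

theorem mem_or_add_nodeT {P : Pts W} (h : 2 • P ∈ N.e0Sub) :
    P ∈ N.e0Sub ∨ P + nodeT N ∈ N.e0Sub := by
  obtain ⟨P, rfl⟩ := (originEquiv ((ratCurve W)⁄(AlgebraicClosure ℚ)) r).surjective P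
  rw [← map_nsmul, N.mem_e0Sub] at h
  rw [nodeT, ← map_add, N.mem_e0Sub, N.mem_e0Sub]
  exact e0_or_e0_add_T N.node h

/-- A halving inside the component of the identity. -/
theorem exists_half {n : ℕ} {z : Pts W} (hz : 2 ^ n • z = 0) (hzE : z ∈ N.e0Sub) :
    ∃ y ∈ N.e0Sub, 2 ^ (n + 1) • y = 0 ∧ 2 • y = z := by
  obtain ⟨y, hy, hyz⟩ := exists_div W n hz
  rcases mem_or_add_nodeT N (P := y) (by rw [hyz]; exact hzE) with h | h
  · exact ⟨y, h, hy, hyz⟩
  · exact ⟨_, h, by rw [nsmul_add, hy, pow_succ, mul_nsmul', two_nsmul_nodeT, nsmul_zero, zero_add],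
      by rw [nsmul_add, hyz, two_nsmul_nodeT, add_zero]⟩

/-- The component of the identity contains exactly one point of order two. -/
theorem exists_unique_order_two :
    ∃ x ∈ N.e0Sub, 2 • x = 0 ∧ x ≠ 0 ∧ ∀ y ∈ N.e0Sub, 2 • y = 0 → y = 0 ∨ y = x := by
  let T2 := {z : Pts W // 2 • z = 0}
  have e : Nat.card T2 = 4 := by
    rw [Nat.card_congr (Equiv.subtypeEquivRight fun x => (mem_torsion_iff W).symm :
      T2 ≃ Submodule.torsionBy ℤ ((ratCurve W)⁄(AlgebraicClosure ℚ)).Point ((2 : ℕ) : ℤ)),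
      natCard_torsion (ratCurve W) two_ne_zero]
    rfl
  have : Finite T2 := Nat.finite_of_card_ne_zero (by rw [e]; norm_num)
  let _ : Fintype T2 := Fintype.ofFinite T2
  have h4 : Fintype.card T2 = 4 := by rw [← Nat.card_eq_fintype_card, e]
  set S : Finset T2 := Finset.univ.filter fun z => z.1 ∈ N.e0Sub
  let tr : T2 → T2 := fun z => ⟨z.1 + nodeT N, by
    rw [nsmul_add, z.2, two_nsmul_nodeT, add_zero]⟩
  have hin : ∀ z ∈ S, z.1 ∈ N.e0Sub := fun z hz => (Finset.mem_filter.1 hz).2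
  have htr : ∀ z, tr (tr z) = z := fun z => Subtype.ext (by
    show z.1 + nodeT N + nodeT N = z.1
    rw [add_assoc, ← two_nsmul, two_nsmul_nodeT, add_zero])
  have hc : S.card = 2 := by
    have h1 : Sᶜ = S.map ⟨tr, Function.LeftInverse.injective htr⟩ := by
      ext z
      rw [Finset.mem_compl, Finset.mem_map]
      refine ⟨fun hz => ⟨tr z, Finset.mem_filter.2 ⟨Finset.mem_univ _,
        ((mem_or_add_nodeT N (P := z.1) (by rw [z.2]; exact zero_mem _)).resolve_left fun h =>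
          hz (Finset.mem_filter.2 ⟨Finset.mem_univ _, h⟩))⟩, htr z⟩, ?_⟩
      rintro ⟨w, hw, rfl⟩ hmem
      refine nodeT_not_mem N ?_
      simpa [tr] using sub_mem (hin _ hmem) (hin _ hw)
    have h2 := Finset.card_compl_add_card S
    rw [h1, Finset.card_map, h4] at h2
    omega
  have h0 : (⟨0, nsmul_zero 2⟩ : T2) ∈ S :=
    Finset.mem_filter.2 ⟨Finset.mem_univ _, zero_mem _⟩
  obtain ⟨x, hx, hne⟩ := S.exists_mem_ne (by rw [hc]; norm_num) ⟨0, nsmul_zero 2⟩
  refine ⟨x.1, hin x hx, x.2, fun h => hne (Subtype.ext h), fun y hy hy2 => ?_⟩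
  by_contra hcon
  push Not at hcon
  have hys : (⟨y, hy2⟩ : T2) ∈ S := Finset.mem_filter.2 ⟨Finset.mem_univ _, hy⟩
  have h3 : 2 < S.card := Finset.two_lt_card.2
    ⟨⟨0, nsmul_zero 2⟩, h0, x, hx, ⟨y, hy2⟩, hys, hne.symm,
      fun h => hcon.1 (congrArg Subtype.val h).symm, fun h => hcon.2 (congrArg Subtype.val h).symm⟩
  omega

/-- **The line of the component of the identity.** -/
theorem exists_line_vec_two (B : TateBasis 2 W) :
    ∃ v₀ : Fin 2 → ℤ_[2], (∃ i, IsUnit (v₀ i)) ∧ (∀ n, B.φ n v₀ ∈ N.e0Sub) ∧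
      ∀ n w, B.φ n w ∈ N.e0Sub → ∃ k : ℕ, B.φ n w = B.φ n (k • v₀) := by
  obtain ⟨x, hxE, hx, hx0, huniq⟩ := exists_unique_order_two N
  choose g hgE hg2 hgc using fun (n : ℕ) (z : {z : Pts W // 2 ^ n • z = 0 ∧ z ∈ N.e0Sub}) =>
    exists_half N z.2.1 z.2.2
  let T : ∀ k : ℕ, {z : Pts W // 2 ^ (k + 1) • z = 0 ∧ z ∈ N.e0Sub} := fun k => Nat.rec
    ⟨x, by rw [pow_one]; exact hx, hxE⟩ (fun k z => ⟨g (k + 1) z, hg2 _ z, hgE _ z⟩) k
  let X : ℕ → Pts W := fun n => match n with | 0 => (0 : Pts W) | k + 1 => (T k).1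
  have hXt : ∀ n, 2 ^ n • X n = 0 := fun n => by
    cases n with
    | zero => exact nsmul_zero _
    | succ k => exact (T k).2.1
  have hXE : ∀ n, X n ∈ N.e0Sub := fun n => by
    cases n with
    | zero => exact zero_mem _
    | succ k => exact (T k).2.2
  have hXc : ∀ n, 2 • X (n + 1) = X n := fun n => by
    cases n with
    | zero => exact hx
    | succ k => exact hgc (k + 1) (T k)
  obtain ⟨v₀, hv₀⟩ := B.exists_vec hXt hXc
  refine ⟨v₀, ?_, fun n => by rw [hv₀]; exact hXE n, fun n w hw => ?_⟩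
  · by_contra hne
    push Not at hne
    refine hx0 ((hv₀ 1).symm.trans ((B.ker 1 v₀).mpr fun i => ?_))
    rw [← RingHom.mem_ker, PadicInt.ker_toZModPow, pow_one, ← PadicInt.maximalIdeal_eq_span_p]
    exact hne i
  have hcyc : ∀ n y, 2 ^ n • y = 0 → y ∈ N.e0Sub → ∃ k : ℕ, y = k • X n := by
    intro n
    induction n with
    | zero => exact fun y hy _ => ⟨0, by simpa using hy⟩
    | succ n ih =>
      intro y hy hyE
      obtain ⟨k, hk⟩ := ih (2 • y) (by rw [← mul_nsmul', ← pow_succ, hy])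
        (N.e0Sub.nsmul_mem hyE _)
      rcases huniq (y - k • X (n + 1))
        (sub_mem hyE (N.e0Sub.nsmul_mem (hXE (n + 1)) k))
        (by rw [nsmul_sub, smul_comm 2 k, hXc, hk, sub_self]) with h | h
      · exact ⟨k, sub_eq_zero.1 h⟩
      · refine ⟨k + 2 ^ n, ?_⟩
        have hxn : 2 ^ n • X (n + 1) = x := by
          rw [← hv₀ (n + 1), add_comm n 1, B.pow_compat 1 n]
          exact hv₀ 1
        rw [add_nsmul, hxn, ← h, add_sub_cancel]
  obtain ⟨k, hk⟩ := hcyc n _ (B.nsmul_phi n w) hw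
  exact ⟨k, by rw [map_nsmul, hv₀, hk]⟩

/-- **The triangular form.** -/
theorem exists_triangular_two (B : TateBasis 2 W) (hm : MultAt W q A) :
    ∃ C : Matrix (Fin 2) (Fin 2) ℤ_[2], IsUnit C.det ∧ ∀ σ ∈ A.decompositionSubgroup ℚ,
      ∃ x y z : ℤ_[2], B.rep σ * C = C * !![x, y; 0, z] ∧
        (σ ∈ A.inertiaSubgroupIn ℚ → z = 1) := by
  obtain ⟨r, N⟩ := exists_nodeData hm
  obtain ⟨v₀, ⟨i, hi⟩, hvE, hline⟩ := exists_line_vec_two N B
  obtain ⟨C, hC, hC0⟩ :
      ∃ C : Matrix (Fin 2) (Fin 2) ℤ_[2], IsUnit C.det ∧ C *ᵥ Pi.single 0 1 = v₀ := by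
    fin_cases i
    · refine ⟨!![v₀ 0, 0; v₀ 1, 1], by simpa [det_fin_two_of] using hi, ?_⟩
      funext j; fin_cases j <;> simp
    · refine ⟨!![v₀ 0, 1; v₀ 1, 0], by simpa [det_fin_two_of] using hi, ?_⟩
      funext j; fin_cases j <;> simp
  refine ⟨C, hC, fun σ hσ => ?_⟩
  set M := B.rep σ
  set T := C⁻¹ * (M * C) with hT
  have hTC : M * C = C * T := by rw [hT, ← mul_assoc, Matrix.mul_nonsing_inv _ hC, one_mul]
  have hcoord : ∀ n w, B.φ n w ∈ N.e0Sub → PadicInt.toZModPow n ((C⁻¹ *ᵥ w) 1) = 0 := by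
    intro n w hw
    obtain ⟨k, hk⟩ := hline n w hw
    have h := B.phi_eq_iff.mp (B.phi_mulVec_congr C⁻¹ hk) 1
    rw [h, mulVec_smul, ← hC0, mulVec_mulVec, Matrix.nonsing_inv_mul _ hC, one_mulVec]
    simp
  have hTj : ∀ j, C⁻¹ *ᵥ (M *ᵥ (C *ᵥ Pi.single j 1)) = T.col j := fun j => by
    rw [mulVec_mulVec, mulVec_mulVec, mul_assoc, ← hT, mulVec_single_one]
  have h10 : T 1 0 = 0 := PadicInt.ext_of_toZModPow.mp fun n => by
    have h := hcoord n (M *ᵥ v₀) (by rw [← B.rep_spec]; exact N.smul_mem_e0Sub hσ (hvE n))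
    rw [← hC0, hTj] at h
    rw [map_zero]
    exact h
  refine ⟨T 0 0, T 0 1, T 1 1, ?_, fun hI => PadicInt.ext_of_toZModPow.mp fun n => ?_⟩
  · rw [hTC]
    congr 1
    ext a b; fin_cases a <;> fin_cases b <;> simp [h10]
  · set w := C *ᵥ Pi.single 1 1 with hw
    have h := N.smul_sub_mem_e0Sub hI (B.φ n w)
    rw [B.rep_spec, ← map_sub] at h
    have h' := hcoord n _ h
    rw [mulVec_sub, Pi.sub_apply, hw, hTj, mulVec_mulVec, Matrix.nonsing_inv_mul _ hC, one_mulVec,
      Pi.single_eq_same, map_sub, map_one, sub_eq_zero] at h'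
    rw [map_one]
    exact h'

end FA.EDR
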