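import Fermat.Agent.EveryDeRham.MapSeries
import Fermat.Agent.EveryDeRham.GoodPoints

/-!
# Lifts of systems on a congruent equation

For an equation over the integers of `ℂ_p` congruent modulo `π` to one over `ℤ`, a system of
parameters compatible under multiplication by `p` has exactly one compatible system in `A_inf`
for the equation over `ℤ` which is congruent to it modulo `π`.
-/

set_option autoImplicit false
set_option linter.unusedSectionVars false

noncomputable section

open Ideal FA.TateSen FA.BDR FA.BDRCoh FA.PadicHodge FA.SSDR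

namespace FA.EDR

attribute [local irreducible] fgAdd wSeries mulN

variable {σ : Type*} [Finite σ] {p : ℕ} [hp : Fact p.Prime]

local notation "C" => ℂ_[p]

/-- The equation over the integers is congruent modulo `π` to the one over `ℤ`. -/
structure IsNear (π : OC p) (W : WeierstrassCurve ℤ) (V : WeierstrassCurve (OC p)) : Prop where
  norm_lt : ‖(π : ℂ_[p])‖ < 1
  dvd_p : π ∣ (p : OC p)
  Δ_ne : W.Δ ≠ 0
  cong : V.map (Ideal.Quotient.mk (span {π})) =
    (wZp p W).map ((Ideal.Quotient.mk (span {π})).comp (zpO p))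

variable {π : OC p} {W : WeierstrassCurve ℤ} {V : WeierstrassCurve (OC p)}

theorem span_p_le (h : IsNear π W V) : span {(p : OC p)} ≤ span {π} :=
  (span_singleton_le_iff_mem _).2 (mem_span_singleton.2 h.dvd_p)

/-- Values of congruent series at congruent arguments. -/
theorem evI_sub_mem (h : IsNear π W V) {f g : MvPowerSeries σ (OC p)}
    (hfg : MvPowerSeries.map (Ideal.Quotient.mk (span {π})) f =
      MvPowerSeries.map (Ideal.Quotient.mk (span {π})) g)
    {t t' : σ → OC p} (ht : ∀ s, t s ∈ (span {(p : OC p)}).radical)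
    (ht' : ∀ s, t' s ∈ (span {(p : OC p)}).radical) (htt : ∀ s, t s - t' s ∈ span {π}) :
    evI t ht f - evI t' ht' g ∈ span {π} := by
  obtain ⟨c, hc⟩ := exists_C_mul hfg
  rw [← sub_add_sub_cancel _ (evI t ht g), ← map_sub (evI t ht), hc, map_mul, evz_C]
  refine add_mem (Ideal.mul_mem_right _ _ (mem_span_singleton_self _)) ?_
  rw [← Ideal.Quotient.eq]
  set q := Ideal.Quotient.mk (span {π})
  refine RingHom.congr_fun (hom_ext (⊥ : Ideal (OC p ⧸ span {π}))
    (e := q.comp (evI t ht)) (e' := q.comp (evI t' ht')) (fun r => ?_) (fun s => ?_) fun s => ?_) g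
  · rw [RingHom.comp_apply, RingHom.comp_apply, evz_C, evz_C]
  · rw [RingHom.comp_apply, RingHom.comp_apply, evz_X, evz_X]
    exact Ideal.Quotient.eq.2 (htt s)
  · obtain ⟨k, hk⟩ := ht s
    refine ⟨k, ?_⟩
    rw [Ideal.mem_bot, RingHom.comp_apply, evz_X, ← map_pow, Ideal.Quotient.eq_zero_iff_mem]
    exact span_p_le h hk

/-- Values of a series over `ℤ_p` and of a congruent one over the integers. -/
theorem evO_sub_evI_mem (h : IsNear π W V) {f : MvPowerSeries σ ℤ_[p]}
    {g : MvPowerSeries σ (OC p)}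
    (hfg : MvPowerSeries.map ((Ideal.Quotient.mk (span {π})).comp (zpO p)) f =
      MvPowerSeries.map (Ideal.Quotient.mk (span {π})) g)
    {t t' : σ → OC p} (ht : ∀ s, t s ∈ (span {(p : OC p)}).radical)
    (ht' : ∀ s, t' s ∈ (span {(p : OC p)}).radical) (htt : ∀ s, t s - t' s ∈ span {π}) :
    evO t ht f - evI t' ht' g ∈ span {π} := by
  rw [← evI_map ht]
  refine evI_sub_mem h (MvPowerSeries.ext fun d => ?_) ht ht' htt
  rw [← hfg]
  simp [MvPowerSeries.coeff_map]

theorem map_mulN_cong (h : IsNear π W V) (n : ℕ) :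
    MvPowerSeries.map ((Ideal.Quotient.mk (span {π})).comp (zpO p)) (mulN (wZp p W) n) =
      MvPowerSeries.map (Ideal.Quotient.mk (span {π})) (mulN V n) := by
  show PowerSeries.map _ _ = PowerSeries.map _ _
  rw [map_mulN, map_mulN, h.cong]

theorem map_fgAdd_cong (h : IsNear π W V) :
    MvPowerSeries.map ((Ideal.Quotient.mk (span {π})).comp (zpO p)) (fgAdd (wZp p W)) =
      MvPowerSeries.map (Ideal.Quotient.mk (span {π})) (fgAdd V) := by
  rw [map_fgAdd, map_fgAdd, h.cong]

variable (π) in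
/-- The elements of `A_inf` with image divisible by `π`. -/
def nearI : Ideal (AInf p) := (span {π}).comap (theta p)

theorem defIdeal_le_nearI (h : IsNear π W V) : defIdeal p ≤ nearI π := by
  refine span_le.2 ?_
  rintro x (rfl | rfl)
  · show theta p (p : AInf p) ∈ span {π}
    rw [map_natCast]
    exact mem_span_singleton.2 h.dvd_p
  · show theta p (xi p) ∈ span {π}
    rw [theta_xi]
    exact zero_mem _

theorem exists_nearI_pow_le (h : IsNear π W V) : ∃ N, 0 < N ∧ nearI π ^ N ≤ defIdeal p := by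
  obtain ⟨N, hN⟩ := exists_pow_lt_of_lt_one (norm_p_pos_C (p := p)) h.norm_lt
  have hdvd : (p : OC p) ∣ π ^ (N + 1) := by
    rw [dvd_OC, SubmonoidClass.coe_pow, norm_pow]
    exact (pow_le_pow_of_le_one (norm_nonneg _) h.norm_lt.le N.le_succ).trans hN.le
  refine ⟨N + 1, N.succ_pos, fun x hx => mem_defIdeal_of_theta ?_⟩
  have h1 := Ideal.le_comap_pow (K := span {π}) (theta p) (N + 1) hx
  rw [Ideal.mem_comap, span_singleton_pow, mem_span_singleton] at h1
  exact hdvd.trans h1

theorem eq_of_forall_nearI (h : IsNear π W V) {a b : AInf p}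
    (hab : ∀ m, a - b ∈ nearI π ^ m) : a = b := by
  obtain ⟨N, -, hN⟩ := exists_nearI_pow_le h
  refine (IsHausdorff.eq_iff_smodEq (I := defIdeal p)).2 fun m => ?_
  rw [SModEq.sub_mem, smul_eq_mul, Ideal.mul_top]
  have h1 := hab (N * m)
  rw [pow_mul] at h1
  exact Ideal.pow_right_mono hN m h1

theorem radical_of_near (h : IsNear π W V) {a b : AInf p} (ha : a ∈ (defIdeal p).radical)
    (hab : b - a ∈ nearI π) : b ∈ (defIdeal p).radical := by
  refine mem_radical_of_theta ?_
  obtain ⟨c, hc⟩ := mem_span_singleton.1 (show theta p (b - a) ∈ span {π} from hab)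
  rw [map_sub, sub_eq_iff_eq_add] at hc
  rw [hc, AddMemClass.coe_add, MulMemClass.coe_mul]
  refine (IsUltrametricDist.norm_add_le_max _ _).trans_lt (max_lt ?_ (norm_theta_lt ha))
  rw [norm_mul]
  exact (mul_le_of_le_one_right (norm_nonneg _) (norm_OC_le c)).trans_lt h.norm_lt

/-- **Contraction for `π`.** -/
theorem mulPA_sub_mem_near (h : IsNear π W V) {a b : AInf p} (ha : a ∈ (defIdeal p).radical)
    (hb : b ∈ (defIdeal p).radical) {k : ℕ} (hk : 1 ≤ k) (hab : a - b ∈ nearI π ^ k) :
    mulPA W ha - mulPA W hb ∈ nearI π ^ (k + 1) := by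
  obtain ⟨M, U, hMU⟩ := exists_mulN_expand (p := p) (W := W) h.Δ_ne
  have hap : a ^ p ∈ (defIdeal p).radical := Ideal.pow_mem_of_mem _ ha _ hp.out.pos
  have hbp : b ^ p ∈ (defIdeal p).radical := Ideal.pow_mem_of_mem _ hb _ hp.out.pos
  have hX : MvPowerSeries.constantCoeff ((PowerSeries.X : PowerSeries ℤ_[p]) ^ p) = 0 := by
    rw [map_pow, PowerSeries.X, MvPowerSeries.constantCoeff_X, zero_pow hp.out.ne_zero]
  have hexp : ∀ {c : AInf p} (hc : c ∈ (defIdeal p).radical)
      (hcp : c ^ p ∈ (defIdeal p).radical),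
      evA (fun _ : Unit => c) (fun _ => hc) (PowerSeries.expand p hp.out.ne_zero U) =
        evA (fun _ : Unit => c ^ p) (fun _ => hcp) U := by
    intro c hc hcp
    rw [PowerSeries.expand_apply, ← comp1_apply hX]
    refine evA_comp1 _ _ hcp ?_ U
    rw [map_pow, PowerSeries.X, evz_X]
  have hpI : (p : AInf p) ∈ nearI π := defIdeal_le_nearI h p_mem_defIdeal
  rw [mulPA, mulPA, hMU, map_add, map_add, map_mul, map_mul, evz_C, evz_C, hexp ha hap,
    hexp hb hbp, add_sub_add_comm, ← mul_sub, map_natCast]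
  refine add_mem ?_ ?_
  · rw [pow_succ']
    exact Ideal.mul_mem_mul hpI ((span_singleton_le_iff_mem _).2 hab (sub_evA_mem M ha hb))
  · refine (span_singleton_le_iff_mem _).2 ?_ (sub_evA_mem U hap hbp)
    exact pow_p_sub_pow_mem hpI (Ideal.pow_le_self (by omega) hab) hab

/-- **Uniqueness modulo `π`.** -/
theorem ext_near (h : IsNear π W V) {z z' : ℕ → AInf p} (hz : IsLiftSys W z)
    (hz' : IsLiftSys W z') (e : ∀ n, z n - z' n ∈ nearI π) : z = z' := by
  have key : ∀ m n, z n - z' n ∈ nearI π ^ (m + 1) := by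
    intro m
    induction m with
    | zero => intro n; rw [zero_add, pow_one]; exact e n
    | succ m ih =>
      intro n
      rw [← hz.compat n, ← hz'.compat n]
      exact mulPA_sub_mem_near h _ _ (Nat.succ_pos m) (ih (n + 1))
  funext n
  exact eq_of_forall_nearI h fun m => Ideal.pow_le_pow_right m.le_succ (key m n)

/-- **The lift of an approximate system.** -/
theorem exists_liftSys_near (h : IsNear π W V) {x : ℕ → AInf p}
    (hx : ∀ n, x n ∈ (defIdeal p).radical)
    (hxc : ∀ n, mulPA W (hx (n + 1)) - x n ∈ nearI π) :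
    ∃ z, IsLiftSys W z ∧ ∀ n, z n - x n ∈ nearI π := by
  obtain ⟨N, hN0, hN⟩ := exists_nearI_pow_le h
  set Y := liftApprox W (fun n => ⟨x n, hx n⟩)
  have hstep : ∀ m n, (Y (m + 1) n : AInf p) - Y m n ∈ nearI π ^ (m + 1) := by
    intro m
    induction m with
    | zero => intro n; rw [zero_add, pow_one]; exact hxc n
    | succ m ih =>
      intro n
      exact mulPA_sub_mem_near h (Y (m + 1) (n + 1)).2 (Y m (n + 1)).2 (Nat.succ_pos m) (ih (n + 1))
  have hcau : ∀ n k l, k ≤ l → (Y l n : AInf p) - Y k n ∈ nearI π ^ (k + 1) := by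
    intro n k l hkl
    induction l, hkl using Nat.le_induction with
    | base => rw [sub_self]; exact zero_mem _
    | succ l hkl ih =>
      rw [← sub_add_sub_cancel _ (Y l n : AInf p)]
      exact add_mem (Ideal.pow_le_pow_right (by omega) (hstep l n)) ih
  have hlim : ∀ n, ∃ L : AInf p, ∀ m, L - (Y m n : AInf p) ∈ nearI π ^ (m + 1) := fun n => by
    obtain ⟨L, hL⟩ := IsPrecomplete.prec
      (inferInstance : IsPrecomplete (defIdeal p) (AInf p)) (f := fun j => (Y (N * j) n : AInf p))
      fun {k l} hkl => by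
        rw [SModEq.sub_mem, smul_eq_mul, Ideal.mul_top, ← neg_sub, neg_mem_iff]
        have h1 := Ideal.pow_le_pow_right (Nat.le_succ (N * k))
          (hcau n (N * k) (N * l) (Nat.mul_le_mul_left N hkl))
        rw [pow_mul] at h1
        exact Ideal.pow_right_mono hN k h1
    refine ⟨L, fun m => ?_⟩
    have h1 := hL (m + 1)
    rw [SModEq.sub_mem, smul_eq_mul, Ideal.mul_top, ← neg_sub, neg_mem_iff] at h1
    rw [← sub_add_sub_cancel L (Y (N * (m + 1)) n : AInf p)]
    refine add_mem (Ideal.pow_right_mono (defIdeal_le_nearI h) _ h1) ?_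
    exact hcau n m _ (m.le_succ.trans (Nat.le_mul_of_pos_left _ hN0))
  choose L hL using hlim
  have hLx : ∀ n, L n - x n ∈ nearI π := fun n => by
    have h1 := hL n 0
    rwa [zero_add, pow_one] at h1
  have hrad : ∀ n, L n ∈ (defIdeal p).radical := fun n => radical_of_near h (hx n) (hLx n)
  refine ⟨L, ⟨hrad, fun n => eq_of_forall_nearI h fun m => ?_⟩, hLx⟩
  rw [← sub_sub_sub_cancel_right _ (L n) (Y (m + 1) n : AInf p)]
  exact sub_mem (Ideal.pow_le_pow_right (by omega)
      (mulPA_sub_mem_near h (hrad (n + 1)) (Y m (n + 1)).2 (Nat.succ_pos m) (hL (n + 1) m)))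
    (Ideal.pow_le_pow_right (by omega) (hL n (m + 1)))

/-- The system in `A_inf` approximates the parameters. -/
def IsNearSys (π : OC p) (W : WeierstrassCurve ℤ) (t : ℕ → OC p) (z : ℕ → AInf p) : Prop :=
  IsLiftSys W z ∧ ∀ n, theta p (z n) - t n ∈ span {π}

/-- **The congruent lift of a system.** -/
theorem exists_nearSys (h : IsNear π W V) {t : ℕ → OC p}
    (ht : ∀ n, t n ∈ (span {(p : OC p)}).radical)
    (hc : ∀ n, evI (fun _ : Unit => t (n + 1)) (fun _ => ht (n + 1)) (mulN V p) = t n) :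
    ∃ z, IsNearSys π W t z := by
  choose x hx using fun n => surjective_theta (t n)
  have hxr : ∀ n, x n ∈ (defIdeal p).radical := fun n =>
    mem_radical_of_theta (by rw [hx n]; exact norm_lt_of_radical (ht n))
  obtain ⟨z, hz, hzx⟩ := exists_liftSys_near h hxr fun n => by
    show theta p (mulPA W (hxr (n + 1)) - x n) ∈ span {π}
    rw [map_sub, mulPA, theta_evA, hx n, ← hc n]
    exact evO_sub_evI_mem h (map_mulN_cong h p) _ _ fun _ => by rw [hx, sub_self]; exact zero_mem _
  refine ⟨z, hz, fun n => ?_⟩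
  rw [← hx n, ← map_sub]
  exact hzx n

theorem IsNearSys.ext (h : IsNear π W V) {t : ℕ → OC p} {z z' : ℕ → AInf p}
    (hz : IsNearSys π W t z) (hz' : IsNearSys π W t z') : z = z' :=
  ext_near h hz.1 hz'.1 fun n => by
    show theta p (z n - z' n) ∈ span {π}
    rw [map_sub, ← sub_sub_sub_cancel_right _ _ (t n)]
    exact sub_mem (hz.2 n) (hz'.2 n)

/-- Sums of systems. -/
theorem IsNearSys.add (h : IsNear π W V) {t t' : ℕ → OC p}
    (ht : ∀ n, t n ∈ (span {(p : OC p)}).radical) (ht' : ∀ n, t' n ∈ (span {(p : OC p)}).radical)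
    {z z' : ℕ → AInf p} (hz : IsNearSys π W t z) (hz' : IsNearSys π W t' z') :
    IsNearSys π W (fun n => evI ![t n, t' n] (evO_pair_radical (ht n) (ht' n)) (fgAdd V))
      fun n => addA W (hz.1.rad n) (hz'.1.rad n) :=
  ⟨hz.1.addA W h.Δ_ne hz'.1, fun n => by
    unfold FA.SSDR.addA
    rw [theta_evA]
    exact evO_sub_evI_mem h (map_fgAdd_cong h) _ _
      (Fin.forall_fin_two.2 ⟨hz.2 n, hz'.2 n⟩)⟩

theorem galO_mem_span (h : IsNear π W V) (g : PadicAlgCl p ≃ₐ[ℚ_[p]] PadicAlgCl p) {x : OC p}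
    (hx : x ∈ span {π}) : galO g x ∈ span {π} := by
  obtain ⟨c, rfl⟩ := mem_span_singleton.1 hx
  have hπ0 : (π : C) ≠ 0 := fun h0 => by
    obtain ⟨d, hd⟩ := h.dvd_p
    have := congrArg (fun y : OC p => (y : C)) hd
    simp only [MulMemClass.coe_mul, coe_natCast_OC, h0, zero_mul] at this
    exact hp.out.ne_zero (Nat.cast_eq_zero.1 this)
  rw [map_mul, mem_span_singleton]
  refine Dvd.dvd.mul_right ?_ _
  refine ⟨mkOC ((galO g π : C) / π) ?_, Subtype.ext ?_⟩
  · rw [norm_div, coe_galO, norm_galC, div_self (norm_ne_zero_iff.2 hπ0)]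
  · rw [MulMemClass.coe_mul, coe_mkOC, mul_div_cancel₀ _ hπ0]

/-- Conjugates of systems. -/
theorem IsNearSys.gal (h : IsNear π W V) (g : PadicAlgCl p ≃ₐ[ℚ_[p]] PadicAlgCl p)
    {t : ℕ → OC p} {z : ℕ → AInf p} (hz : IsNearSys π W t z) :
    IsNearSys π W (fun n => galO g (t n)) fun n => ainfGal g (z n) :=
  ⟨hz.1.gal W g, fun n => by
    rw [theta_ainfGal, ← map_sub]
    exact galO_mem_span h g (hz.2 n)⟩

end FA.EDR
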