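import Fermat.Agent.EveryDeRham.MultTwo
import Fermat.Agent.PotentialDeRham.DeRham

/-!
# De Rham at every pole of `j`, `p = 2` included

At a place of multiplicative reduction the component of the identity gives a triangular shape with
inertia trivial on the quotient, and a quadratic twist reduces a pole of `j` to that case.
-/

set_option autoImplicit false
set_option linter.unusedSectionVars false
set_option linter.style.haveILetI false

noncomputable section

open Matrix WeierstrassCurve FA.TateSen FA.BDR FA.Sen FA.PadicHodge FA.Frob FA.EC FA.Local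
  FA.RT.Tate FA.PadicChar FA.CurveDR FA.OrdDR
open scoped WeierstrassCurve.Affine Classical

namespace FA.EDR

variable {p : ℕ} [hp : Fact p.Prime] {W : WeierstrassCurve ℤ} [(ratCurve W).IsElliptic]

local notation "Cp" => ℂ_[p]
local notation "G" => PadicAlgCl p ≃ₐ[ℚ_[p]] PadicAlgCl p
local notation "GQ" => AlgebraicClosure ℚ ≃ₐ[ℚ] AlgebraicClosure ℚ

/-- A triangular form with square one on inertia in the quotient is de Rham. -/
theorem isDeRham_of_triangular {ρ : G → Matrix (Fin 2) (Fin 2) ℚ_[p]} (hρ : IsQpRep p (Fin 2) ρ)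
    (hdet : ∀ τ, (ρ τ).det = ((chi p τ : ℤ_[p]) : ℚ_[p])) (C : (Matrix (Fin 2) (Fin 2) ℚ_[p])ˣ)
    {T : G → Matrix (Fin 2) (Fin 2) ℚ_[p]}
    (hT : ∀ τ, ρ τ * (C : Matrix (Fin 2) (Fin 2) ℚ_[p]) =
      (C : Matrix (Fin 2) (Fin 2) ℚ_[p]) * T τ)
    (h10 : ∀ τ, T τ 1 0 = 0) (hI : ∀ τ ∈ inertiaGal p, T τ 1 1 ^ 2 = 1) :
    IsDeRham ρ ∧ ∃ P : (Matrix (Fin 2) (Fin 2) Cp)ˣ, ∀ τ,
      FA.Sen.conj (cpRep ρ) P τ = Matrix.diagonal fun i => twist p (![1, 0] i) τ := by
  have hTe : ∀ τ, T τ = (↑C⁻¹ : Matrix (Fin 2) (Fin 2) ℚ_[p]) * ρ τ *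
      (C : Matrix (Fin 2) (Fin 2) ℚ_[p]) := fun τ => by
    rw [mul_assoc, hT, Units.inv_mul_cancel_left]
  have hTc : Continuous T := by
    rw [funext hTe]
    exact (continuous_const.mul hρ.cont).mul continuous_const
  let η : G →* ℚ_[p] :=
    { toFun := fun τ => T τ 1 1
      map_one' := by rw [hTe, hρ.map_one, mul_one, Units.inv_mul, Matrix.one_apply_eq]
      map_mul' := fun σ τ => by
        have e : T (σ * τ) = T σ * T τ := by
          simp only [hTe, hρ.map_mul, mul_assoc, Units.mul_inv_cancel_left]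
        rw [e, Matrix.mul_apply, Fin.sum_univ_two, h10, zero_mul, zero_add] }
  have hη : Continuous η := hTc.matrix_elem 1 1
  have h0 : IsLocAlg η 0 := by
    obtain ⟨N, -, hNo, hN⟩ := FA.Sen.exists_open_normal_subset
      (W := η ⁻¹' {x | x ≠ -1}) ((isOpen_ne.preimage hη).mem_nhds (by
        show η 1 ≠ -1
        rw [map_one]
        norm_num))
    refine ⟨N, hNo, fun σ hσ hσI => ?_⟩
    rw [zpow_zero]
    exact (sq_eq_one_iff.1 (hI σ hσI)).resolve_right (hN σ hσ)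
  refine isDeRham_of_shape hρ (y := fun τ => T τ 0 1) (continuous_invChar hη) hη
    (isLocAlg_invChar h0) h0 (C := C) fun τ => ?_
  rw [hT τ]
  congr 1
  have hd : T τ 0 0 * T τ 1 1 = ((chi p τ : ℤ_[p]) : ℚ_[p]) := by
    have h1 : (T τ).det = (ρ τ).det := by rw [hTe]; exact Matrix.det_units_conj' C _
    rw [Matrix.det_fin_two, h10, mul_zero, sub_zero, hdet] at h1
    exact h1
  have h00 : T τ 0 0 = ((chi p τ : ℤ_[p]) : ℚ_[p]) * invChar η τ := by
    rw [← hd]
    exact (mul_inv_cancel_right₀ (char_ne_zero hη τ : T τ 1 1 ≠ 0) _).symm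
  ext a b
  fin_cases a <;> fin_cases b <;> simp [η, h00, h10]

/-- The triangular form at a place of multiplicative reduction for `p = 2`. -/
theorem exists_triangular_local_two [Fact (Nat.Prime 2)] (B : TateBasis 2 W)
    (hm : MultAt W 2 (padicPlace 2)) :
    ∃ (C : (Matrix (Fin 2) (Fin 2) ℚ_[2])ˣ)
      (T : (PadicAlgCl 2 ≃ₐ[ℚ_[2]] PadicAlgCl 2) → Matrix (Fin 2) (Fin 2) ℚ_[2]),
      (∀ τ, curveAtP B τ * (C : Matrix (Fin 2) (Fin 2) ℚ_[2]) =
        (C : Matrix (Fin 2) (Fin 2) ℚ_[2]) * T τ) ∧ (∀ τ, T τ 1 0 = 0) ∧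
        ∀ τ ∈ inertiaGal 2, T τ 1 1 = 1 := by
  obtain ⟨C₀, hC₀, h⟩ := exists_triangular_two B hm
  obtain ⟨C, hC⟩ : IsUnit (C₀.map (PadicInt.Coe.ringHom (p := 2))) :=
    ((Matrix.isUnit_iff_isUnit_det _).2 hC₀).map (PadicInt.Coe.ringHom (p := 2)).mapMatrix
  choose x y z he hz using fun τ =>
    h _ (localGaloisToGlobal_mem_decompositionSubgroup 2 τ)
  refine ⟨C, fun τ => (!![x τ, y τ; 0, z τ]).map (PadicInt.Coe.ringHom (p := 2)),
    fun τ => ?_, fun τ => by simp, fun τ hτ => ?_⟩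
  · rw [curveAtP, hC, ← Matrix.map_mul, he τ, Matrix.map_mul]
  · simp [hz τ (FA.PotDR.loc_mem_inertia hτ)]

/-- **Multiplicative reduction at `2` gives a de Rham representation of weights `1` and `0`.** -/
theorem isDeRham_mult_two [Fact (Nat.Prime 2)] (B : TateBasis 2 W)
    (hm : MultAt W 2 (padicPlace 2)) :
    IsDeRham (curveAtP B) ∧ ∃ P : (Matrix (Fin 2) (Fin 2) ℂ_[2])ˣ, ∀ τ,
      FA.Sen.conj (cpRep (curveAtP B)) P τ =
        Matrix.diagonal fun i => twist 2 (![1, 0] i) τ := by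
  obtain ⟨C, T, hT, h10, h11⟩ := exists_triangular_local_two B hm
  exact isDeRham_of_triangular (isQpRep_curveAtP B) (det_curveAtP B) C hT h10
    fun τ hτ => by rw [h11 τ hτ, one_pow]

/-- **A pole of `j` at `2` gives a de Rham representation of weights `1` and `0`.** -/
theorem isDeRham_pole_two [Fact (Nat.Prime 2)] (hj : padicValRat 2 (ratCurve W).j < 0)
    (B : TateBasis 2 W) :
    IsDeRham (curveAtP B) ∧ ∃ P : (Matrix (Fin 2) (Fin 2) ℂ_[2])ˣ, ∀ τ,
      FA.Sen.conj (cpRep (curveAtP B)) P τ =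
        Matrix.diagonal fun i => twist 2 (![1, 0] i) τ := by
  obtain ⟨d, hd, W', hW', hdvd, hc⟩ :=
    FA.OggShafarevich.exists_multiplicative_twist (ratCurve W) hj
  haveI := FA.Root.quadTwist_isElliptic (ratCurve W) hd
  have hΔ := FA.Frob.Δ_ne_zero_of_model hW'
  haveI := FA.Frob.ratCurve_isElliptic_of_Δ hΔ
  obtain ⟨e₁, he₁⟩ := FA.Root.exists_equiv_of_model hW'
  obtain ⟨s, t, hs, ht⟩ := FA.Root.exists_twist_equiv_sqrt (ratCurve W) hd
  have hsign : ∀ σ : GQ, σ s = s ∨ σ s = -s := fun σ =>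
    sq_eq_sq_iff_eq_or_eq_neg.1 (by rw [← map_pow, hs, AlgEquiv.commutes])
  obtain ⟨B'⟩ := exists_tateBasis (p := 2) W'
  obtain ⟨M, hM⟩ := FA.PotDR.exists_twist_matrix B B' (e₁.trans t) hsign fun σ Q =>
    ⟨fun h => ((ht σ (e₁ Q)).1 h).trans (congrArg t (he₁ σ Q).symm),
      fun h => ((ht σ (e₁ Q)).2 h).trans (congrArg (fun R => -t R) (he₁ σ Q).symm)⟩
  obtain ⟨C', T', hT', h10, h11⟩ := exists_triangular_local_two B' (multAt_padicPlace hΔ hdvd hc)
  choose ε hε he using hM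
  refine isDeRham_of_triangular (isQpRep_curveAtP B) (det_curveAtP B) (M * C')
    (T := fun τ => ε τ • T' τ) (fun τ => ?_) (fun τ => by simp [h10]) fun τ hτ => by
      simp [hε, h11 τ hτ]
  rw [Units.val_mul, ← mul_assoc, he τ, mul_assoc (M : Matrix (Fin 2) (Fin 2) ℚ_[2]),
    smul_mul_assoc, hT']
  simp only [mul_smul_comm, mul_assoc]

/-- **De Rham at every pole of `j`.** -/
theorem isDeRham_of_pole_any (hj : padicValRat p (ratCurve W).j < 0) (B : TateBasis p W) :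
    IsDeRham (curveAtP B) ∧ ∃ P : (Matrix (Fin 2) (Fin 2) Cp)ˣ, ∀ τ,
      FA.Sen.conj (cpRep (curveAtP B)) P τ =
        Matrix.diagonal fun i => twist p (![1, 0] i) τ := by
  by_cases h2 : p = 2
  · subst h2
    exact isDeRham_pole_two hj B
  · exact FA.PotDR.isDeRham_of_pole h2 hj B

end FA.EDR
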