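import Fermat.Agent.EveryDeRham.Eigen
import Fermat.Agent.EveryDeRham.Congruent
import Fermat.Agent.EveryDeRham.LogLim
import Fermat.Agent.SupersingularDeRham.Values

/-!
# De Rham at potentially supersingular reduction

Over an open subgroup the parameters of the torsion on a good equation lift to `A_inf` for a
congruent supersingular equation over `ℤ`. Either their logarithm has nonzero image under `θ`, or
they give systems of that equation and its period of the second kind has.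
-/

set_option autoImplicit false
set_option linter.unusedSectionVars false
set_option linter.style.haveILetI false

noncomputable section

open Ideal Matrix WeierstrassCurve FA.TateSen FA.BDR FA.BDRCoh FA.Sen FA.PadicHodge FA.Frob FA.EC
  FA.Local FA.RT.Tate FA.CurveDR FA.OrdDR FA.PotDR FA.SSDR
open scoped WeierstrassCurve.Affine Classical

namespace FA.EDR

attribute [local irreducible] fgAdd wSeries mulN

variable {p : ℕ} [hp : Fact p.Prime]

local notation "Cp" => ℂ_[p]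
local notation "G" => PadicAlgCl p ≃ₐ[ℚ_[p]] PadicAlgCl p
local notation "Qb" => AlgebraicClosure ℚ

/-! ### The equation over the integers of `ℂ_p` -/

theorem norm_embC_le (x : padicPlace p) : ‖embC p (x : Qb)‖ ≤ 1 := by
  rw [norm_embC]
  have h := x.2
  rw [mem_padicPlace_iff, ← NNReal.coe_le_coe, coe_nnnorm, NNReal.coe_one] at h
  exact h

variable (p) in
/-- The integers at the place at `p` in those of `ℂ_p`. -/
def toOC : padicPlace p →+* OC p where
  toFun x := mkOC (embC p (x : Qb)) (norm_embC_le x)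
  map_one' := Subtype.ext (map_one (embC p))
  map_mul' x y := Subtype.ext (map_mul (embC p) (x : Qb) (y : Qb))
  map_zero' := Subtype.ext (map_zero (embC p))
  map_add' x y := Subtype.ext (map_add (embC p) (x : Qb) (y : Qb))

theorem norm_toOC_lt {x : padicPlace p} (h : IsLocalRing.residue (padicPlace p) x = 0) :
    ‖((toOC p x : OC p) : Cp)‖ < 1 := by
  rw [IsLocalRing.residue_eq_zero_iff, ← ValuationSubring.coe_mem_nonunits_iff,
    FA.GalCoh.mem_nonunits_padicPlace, ← norm_embC] at h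
  exact h

theorem exists_isNear {VA : WeierstrassCurve (padicPlace p)} {W₀ : WeierstrassCurve ℤ}
    (hΔ : W₀.Δ ≠ 0)
    (hres : VA.map (IsLocalRing.residue (padicPlace p)) = W₀.map (Int.castRingHom (ResP p))) :
    ∃ π : OC p, IsNear π W₀ (VA.map (toOC p)) := by
  obtain ⟨h₁, h₂, h₃, h₄, h₆⟩ := (WeierstrassCurve.ext_iff).1 hres
  set d : Fin 6 → OC p := ![(p : OC p), toOC p (VA.a₁ - W₀.a₁), toOC p (VA.a₂ - W₀.a₂),
    toOC p (VA.a₃ - W₀.a₃), toOC p (VA.a₄ - W₀.a₄), toOC p (VA.a₆ - W₀.a₆)]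
  obtain ⟨i, -, hi⟩ := Finset.exists_max_image Finset.univ (fun k => ‖(d k : Cp)‖)
    Finset.univ_nonempty
  have hlt : ∀ k, ‖(d k : Cp)‖ < 1 := fun k => by
    fin_cases k
    · show ‖((p : OC p) : Cp)‖ < 1
      rw [coe_natCast_OC]
      exact FA.FontaineWintenberger.norm_p_C_lt
    all_goals
      refine norm_toOC_lt ?_
      rw [map_sub, map_intCast, sub_eq_zero]
      first
        | exact h₁ | exact h₂ | exact h₃ | exact h₄ | exact h₆
  have hdvd : ∀ k, d i ∣ d k := fun k => by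
    have h0 : (d i : Cp) ≠ 0 := norm_pos_iff.1 (lt_of_lt_of_le (by
      show 0 < ‖((p : OC p) : Cp)‖
      rw [coe_natCast_OC]
      exact norm_p_pos_C) (hi 0 (Finset.mem_univ _)))
    refine ⟨mkOC ((d k : Cp) / d i) ?_, Subtype.ext ?_⟩
    · rw [norm_div, div_le_one (norm_pos_iff.2 h0)]
      exact hi k (Finset.mem_univ _)
    · rw [MulMemClass.coe_mul, coe_mkOC, mul_div_cancel₀ _ h0]
  refine ⟨d i, hlt i, hdvd 0, hΔ, ?_⟩
  have key : ∀ (x : padicPlace p) (m : ℤ), d i ∣ toOC p (x - m) →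
      Ideal.Quotient.mk (span {d i}) (toOC p x) =
        Ideal.Quotient.mk (span {d i}) (zpO p (m : ℤ_[p])) := fun x m h => by
    rw [Ideal.Quotient.eq, mem_span_singleton, map_intCast, ← map_intCast (toOC p), ← map_sub]
    exact h
  ext
  · exact key _ _ (hdvd 1)
  · exact key _ _ (hdvd 2)
  · exact key _ _ (hdvd 3)
  · exact key _ _ (hdvd 4)
  · exact key _ _ (hdvd 5)

/-- Torsion over `ℂ_p` is algebraic. -/
theorem exists_mapC_eq {W₀ : WeierstrassCurve ℤ} [(ratCurve W₀).IsElliptic] {n : ℕ}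
    {Q : (curveC p W₀).toAffine.Point} (hQ : p ^ n • Q = 0) :
    ∃ P : Pts W₀, p ^ n • P = 0 ∧ mapC W₀ P = Q := by
  set κ : Cp →+* AlgebraicClosure Cp := algebraMap Cp (AlgebraicClosure Cp)
  set κc := mapHom κ (rfl : (curveC p W₀).map κ = (curveC p W₀).map κ)
  have hinj : Function.Injective κc := mapHom_injective κ rfl
  haveI : ((curveC p W₀).map κ).IsElliptic := inferInstance
  have hpn : p ^ n ≠ 0 := pow_ne_zero _ hp.out.ne_zero
  let A := Submodule.torsionBy ℤ ((ratCurve W₀)⁄Qb).Point ((p ^ n : ℕ) : ℤ)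
  let B := Submodule.torsionBy ℤ ((curveC p W₀).map κ).toAffine.Point ((p ^ n : ℕ) : ℤ)
  have hA : Nat.card A = (p ^ n) ^ 2 := natCard_torsion (ratCurve W₀) hpn
  have hB : Nat.card B = (p ^ n) ^ 2 := natCard_torsionBy _ (Nat.cast_ne_zero.2 hpn)
  have : Finite B := Nat.finite_of_card_ne_zero (by rw [hB]; exact pow_ne_zero _ hpn)
  let f : A → B := fun P => ⟨κc (mapC W₀ P.1), by
    rw [Submodule.mem_torsionBy_iff, natCast_zsmul, ← map_nsmul, ← map_nsmul,
      (mem_torsion_iff W₀).1 P.2, map_zero, map_zero]⟩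
  have hf : Function.Injective f := fun P P' e =>
    Subtype.ext (mapC_injective W₀ (hinj (congrArg Subtype.val e)))
  have hbij : Function.Bijective f :=
    (Nat.bijective_iff_injective_and_card f).2 ⟨hf, hA.trans hB.symm⟩
  obtain ⟨P, hP⟩ := hbij.2 ⟨κc Q, by
    rw [Submodule.mem_torsionBy_iff, natCast_zsmul, ← map_nsmul, hQ, map_zero]⟩
  exact ⟨P.1, (mem_torsion_iff W₀).1 P.2, hinj (congrArg Subtype.val hP)⟩

/-- An additive map of `ℤ_p²` is linear. -/
theorem map_smul_of_add (f : (Fin 2 → ℤ_[p]) →+ (Fin 2 → ℤ_[p])) (a : ℤ_[p])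
    (v : Fin 2 → ℤ_[p]) : f (a • v) = a • f v := by
  funext i
  refine PadicInt.ext_of_toZModPow.mp fun n => ?_
  obtain ⟨d, hd⟩ := Ideal.mem_span_singleton'.1 (PadicInt.appr_spec n a)
  have e : a • v = a.appr n • v + p ^ n • d • v := by
    funext j
    show a * v j = a.appr n • v j + p ^ n • (d * v j)
    rw [nsmul_eq_mul, nsmul_eq_mul, Nat.cast_pow]
    linear_combination -(v j) * hd
  have h0 : PadicInt.toZModPow n ((p : ℤ_[p]) ^ n) = 0 := by
    rw [map_pow, map_natCast, ← Nat.cast_pow, ZMod.natCast_self]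
  have ha : PadicInt.toZModPow n a = PadicInt.toZModPow n (a.appr n : ℤ_[p]) := by
    rw [← sub_eq_zero, ← map_sub, ← hd, map_mul, h0, mul_zero]
  rw [e, map_add, map_nsmul, map_nsmul, Pi.add_apply, Pi.smul_apply, Pi.smul_apply, Pi.smul_apply,
    smul_eq_mul, nsmul_eq_mul, nsmul_eq_mul, Nat.cast_pow, map_add, map_mul, map_mul, map_mul,
    h0, zero_mul, add_zero, ha]

variable {W : WeierstrassCurve ℤ} [(ratCurve W).IsElliptic]

/-- The system moved up by `M` levels. -/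
def shiftSys {W₀ : WeierstrassCurve ℤ} {z : ℕ → AInf p} (hz : IsLiftSys W₀ z) (M n : ℕ) :
    {a : AInf p // a ∈ (defIdeal p).radical} :=
  itA W₀ ⟨z (n - M), hz.rad (n - M)⟩ (M - n)

theorem coe_shiftSys_add {W₀ : WeierstrassCurve ℤ} {z : ℕ → AInf p} (hz : IsLiftSys W₀ z)
    (M n : ℕ) : (shiftSys hz M (n + M) : AInf p) = z n := by
  have e1 : n + M - M = n := by omega
  have e2 : M - (n + M) = 0 := by omega
  rw [shiftSys, e2]
  show z (n + M - M) = z n
  rw [e1]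

theorem isLiftSys_shiftSys {W₀ : WeierstrassCurve ℤ} {z : ℕ → AInf p} (hz : IsLiftSys W₀ z)
    (M : ℕ) : IsLiftSys W₀ fun n => (shiftSys hz M n : AInf p) where
  rad n := (shiftSys hz M n).2
  compat n := by
    rcases lt_or_ge n M with hn | hn
    · have e0 : n + 1 - M = n - M := by omega
      have e1 : (shiftSys hz M (n + 1) : AInf p) =
          (itA W₀ ⟨z (n - M), hz.rad (n - M)⟩ (M - (n + 1)) : AInf p) :=
        congrArg Subtype.val (itA_congr (congrArg z e0) _)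
      have e2 : M - n = M - (n + 1) + 1 := by omega
      rw [mulPA_congr _ e1]
      show _ = (itA W₀ ⟨z (n - M), hz.rad (n - M)⟩ (M - n) : AInf p)
      rw [e2]
      rfl
    · obtain ⟨d, rfl⟩ := Nat.exists_eq_add_of_le' hn
      have e3 := coe_shiftSys_add hz M (d + 1)
      rw [show d + 1 + M = d + M + 1 by omega] at e3
      rw [mulPA_congr _ e3, coe_shiftSys_add]
      exact hz.compat d

theorem shiftSys_addA {W₀ : WeierstrassCurve ℤ} (hΔ : W₀.Δ ≠ 0) {z z' z'' : ℕ → AInf p}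
    (hz : IsLiftSys W₀ z) (hz' : IsLiftSys W₀ z') (hz'' : IsLiftSys W₀ z'')
    (h : ∀ n, z'' n = addA W₀ (hz.rad n) (hz'.rad n)) (M n : ℕ) :
    (shiftSys hz'' M n : AInf p) = addA W₀ (shiftSys hz M n).2 (shiftSys hz' M n).2 :=
  (congrArg Subtype.val (itA_congr
    (b := ⟨_, evA_radical _ (constantCoeff_fgAdd (wZp p W₀))⟩) (h (n - M)) (M - n))).trans
    (itA_addA hΔ ⟨_, hz.rad (n - M)⟩ ⟨_, hz'.rad (n - M)⟩ (M - n))

theorem evO_theta_liftSys {W₀ : WeierstrassCurve ℤ} {u : ℕ → AInf p} (hu : IsLiftSys W₀ u)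
    (n : ℕ) :
    evO (fun _ : Unit => theta p (u (n + 1))) (fun _ => theta_radical (hu.rad (n + 1)))
      (mulN (wZp p W₀) p) = theta p (u n) := by
  rw [← hu.compat n, mulPA, theta_evA]

theorem ptC_tower {W₀ : WeierstrassCurve ℤ} [(ratCurve W₀).IsElliptic] {s : ℕ → OC p}
    (hs : ∀ n, s n ∈ (span {(p : OC p)}).radical) (h0 : s 0 = 0)
    (hc : ∀ n, evO (fun _ : Unit => s (n + 1)) (fun _ => hs (n + 1)) (mulN (wZp p W₀) p) = s n) :
    ∀ n, p • ptC W₀ (hs (n + 1)) = ptC W₀ (hs n) ∧ p ^ n • ptC W₀ (hs n) = 0 := by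
  have hstep : ∀ n, p • ptC W₀ (hs (n + 1)) = ptC W₀ (hs n) := fun n => by
    rw [← ptC_mulN W₀ (hs (n + 1)) p]
    exact ptC_congr W₀ _ (hc n)
  refine fun n => ⟨hstep n, ?_⟩
  induction n with
  | zero =>
    rw [pow_zero, one_nsmul, ptC_congr W₀ (hs 0) h0]
    exact ptC_zero W₀
  | succ n ih => rw [pow_succ, mul_nsmul', hstep, ih]

/-- A compatible system of parameters starting at zero comes from a point of the Tate module. -/
theorem exists_vec_of_params {W₀ : WeierstrassCurve ℤ} [(ratCurve W₀).IsElliptic]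
    (hss : IsSupersingularAt p W₀) (B₀ : TateBasis p W₀) {s : ℕ → OC p}
    (hs : ∀ n, s n ∈ (span {(p : OC p)}).radical) (h0 : s 0 = 0)
    (hc : ∀ n, evO (fun _ : Unit => s (n + 1)) (fun _ => hs (n + 1)) (mulN (wZp p W₀) p) = s n) :
    ∃ c, ∀ n, s n = tPar hss B₀ c n := by
  have ht := ptC_tower (W₀ := W₀) hs h0 hc
  choose P hP hPm using fun n => exists_mapC_eq (ht n).2
  obtain ⟨c, hcv⟩ := B₀.exists_vec hP fun n => mapC_injective (p := p) W₀ (by
    rw [map_nsmul, hPm, hPm, (ht n).1])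
  exact ⟨c, fun n => ptC_inj W₀ (hs n) (tPar_radical hss B₀ c n)
    (by rw [← ptC_tPar, hcv, hPm])⟩

/-- A system whose image starts at zero comes from a point of the Tate module. -/
theorem exists_vec_of_liftSys {W₀ : WeierstrassCurve ℤ} [(ratCurve W₀).IsElliptic]
    (hs : IsSupersingularAt p W₀) (B₀ : TateBasis p W₀) {u : ℕ → AInf p}
    (hu : IsLiftSys W₀ u) (h0 : theta p (u 0) = 0) :
    ∃ c, ∀ n, theta p (u n) = tPar hs B₀ c n :=
  exists_vec_of_params hs B₀ (s := fun n => theta p (u n)) (fun n => theta_radical (hu.rad n)) h0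
    (evO_theta_liftSys hu)

theorem tPar_ext {W₀ : WeierstrassCurve ℤ} [(ratCurve W₀).IsElliptic]
    (hs : IsSupersingularAt p W₀) (B₀ : TateBasis p W₀) {a b : Fin 2 → ℤ_[p]}
    (e : ∀ n, tPar hs B₀ a n = tPar hs B₀ b n) : a = b :=
  funext fun i => PadicInt.ext_of_toZModPow.mp fun n =>
    B₀.phi_eq_iff.1 (mapC_injective (p := p) W₀ (by
      rw [ptC_tPar hs, ptC_tPar hs, ptC_congr W₀ _ (e n)])) i

theorem zeta_zero {W₀ : WeierstrassCurve ℤ} [(ratCurve W₀).IsElliptic]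
    (hs : IsSupersingularAt p W₀) (B₀ : TateBasis p W₀) (n : ℕ) : zeta hs B₀ 0 n = 0 := by
  have hsys : IsLiftSys W₀ (fun _ => (0 : AInf p)) := ⟨fun _ => zero_mem _, fun _ => mulPA_zero⟩
  refine congrFun ((isLiftSys_zeta hs B₀ 0).ext W₀ hs.Δ_ne_zero hsys fun k => ?_) n
  rw [theta_zeta, map_zero]
  exact Subtype.ext ((coe_tPar hs B₀ 0 k).trans (by rw [map_zero (B₀.φ k)]; rfl))

/-- A primitive vector up to a power of `p`. -/
theorem exists_primitive {W₀ : WeierstrassCurve ℤ} [(ratCurve W₀).IsElliptic]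
    (B₀ : TateBasis p W₀) {x : Fin 2 → ℤ_[p]} (hx : x ≠ 0) :
    ∃ (k : ℕ) (w : Fin 2 → ℤ_[p]), x = ((p : ℤ_[p]) ^ k) • w ∧ B₀.φ 1 w ≠ 0 := by
  obtain ⟨j, hj⟩ : ∃ j, x j ≠ 0 := by
    by_contra hc
    push Not at hc
    exact hx (funext hc)
  obtain ⟨j₀, -, hj₀⟩ := Finset.exists_max_image Finset.univ (fun k => ‖x k‖)
    Finset.univ_nonempty
  have hj0 : x j₀ ≠ 0 := fun h0 => hj (norm_le_zero_iff.1
    ((hj₀ j (Finset.mem_univ _)).trans_eq (by rw [h0, norm_zero])))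
  set k := (x j₀).valuation
  have hdiv : ∀ i, ∃ c, x i = (p : ℤ_[p]) ^ k * c := fun i => by
    have h1 : ‖x i‖ ≤ (p : ℝ) ^ (-(k : ℤ)) :=
      (hj₀ i (Finset.mem_univ _)).trans_eq (PadicInt.norm_eq_zpow_neg_valuation hj0)
    exact Ideal.mem_span_singleton.1 ((PadicInt.norm_le_pow_iff_mem_span_pow _ k).1 h1)
  choose w hw using hdiv
  refine ⟨k, w, funext hw, fun h0 => ?_⟩
  have h1 := (B₀.ker 1 w).1 h0 j₀
  rw [← RingHom.mem_ker, PadicInt.ker_toZModPow, pow_one, Ideal.mem_span_singleton] at h1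
  obtain ⟨c, hc⟩ := h1
  have h2 := congrArg (fun x : ℤ_[p] => ‖x‖) (hw j₀)
  simp only [hc, PadicInt.norm_eq_zpow_neg_valuation hj0, norm_mul, norm_pow,
    PadicInt.norm_p] at h2
  have h3 : ‖c‖ = (p : ℝ) := by
    have hp0 : (0 : ℝ) < p := Nat.cast_pos.2 hp.out.pos
    rw [_root_.zpow_neg, zpow_natCast, inv_pow] at h2
    have h4 : (p : ℝ)⁻¹ * ‖c‖ = 1 :=
      mul_left_cancel₀ (inv_ne_zero (pow_ne_zero k hp0.ne')) (h2.symm.trans (mul_one _).symm)
    exact ((inv_mul_eq_one₀ hp0.ne').1 h4).symm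
  exact (PadicInt.norm_le_one c).not_gt (h3 ▸ Nat.one_lt_cast.2 hp.out.one_lt)

/-- The two possibilities: a linear form of a given kind with nonzero image under `θ`. -/
theorem exists_row_of_systems {W₀ : WeierstrassCurve ℤ} {π : OC p} {V : WeierstrassCurve (OC p)}
    (h : IsNear π W₀ V) (hs : IsSupersingularAt p W₀) [(ratCurve W₀).IsElliptic]
    {z : (Fin 2 → ℤ_[p]) → ℕ → AInf p} (hz : ∀ v, IsLiftSys W₀ (z v))
    (hz0 : ∀ v, z v 0 ∈ nearI π)
    (hadd : ∀ v v' n, z (v + v') n = addA W₀ ((hz v).rad n) ((hz v').rad n))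
    (hne : ∃ v, z v ≠ 0) {U : Subgroup G} {R : G → Matrix (Fin 2) (Fin 2) ℤ_[p]}
    (hgal : ∀ σ ∈ U, ∀ v n, ainfGal σ (z v n) = z (R σ *ᵥ v) n) :
    ∃ F : (Fin 2 → ℤ_[p]) → BPlus p, (∀ v v', F (v + v') = F v + F v') ∧
      (∀ (a : ℤ_[p]) v, F (a • v) = qpHom p (a : ℚ_[p]) * F v) ∧
      (∀ σ ∈ U, ∀ v, σ • F v = F (R σ *ᵥ v)) ∧ ∃ v, thetaPlus p (F v) ≠ 0 := by
  obtain ⟨L, M, hLa, hLs, hLg, hLM⟩ := exists_log h hz hz0 (fun v v' => hadd v v' 0)
    (fun σ hσ v => hgal σ hσ v 0)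
  by_cases hcase : ∃ v, thetaPlus p (L v) ≠ 0
  · exact ⟨L, hLa, hLs, hLg, hcase⟩
  push Not at hcase
  obtain ⟨B₀⟩ := exists_tateBasis (p := p) W₀
  have hu := fun v => isLiftSys_shiftSys (hz v) M
  have hu0 : ∀ v, theta p (shiftSys (hz v) M 0 : AInf p) = 0 := fun v => by
    have h1 := hLM v (hcase v)
    rw [shiftSys, Nat.sub_zero,
      itA_congr (b := ⟨z v 0, (hz v).rad 0⟩) (congrArg (z v) (Nat.zero_sub M))]
    exact h1
  choose ι hι using fun v => exists_vec_of_liftSys hs B₀ (hu v) (hu0 v)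
  have hzu : ∀ v n, (shiftSys (hz v) M n : AInf p) = zeta hs B₀ (ι v) n := fun v =>
    congrFun ((hu v).ext W₀ h.Δ_ne (isLiftSys_zeta hs B₀ _) fun n => by rw [hι, theta_zeta])
  have hιadd : ∀ v v', ι (v + v') = ι v + ι v' := fun v v' => tPar_ext hs B₀ fun n => by
    rw [← hι, shiftSys_addA h.Δ_ne (hz v) (hz v') (hz _) (hadd v v'), addA, theta_evA,
      ← tPar_add hs B₀ (ι v) (ι v') n]
    exact evz_congr _ _ _ (funext (Fin.forall_fin_two.2 ⟨hι v n, hι v' n⟩)) _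
  have hιgal : ∀ σ ∈ U, ∀ v, ι (R σ *ᵥ v) = B₀.rep (localGaloisToGlobal p σ) *ᵥ ι v :=
    fun σ hσ v => tPar_ext hs B₀ fun n => by
      have e : ainfGal σ (shiftSys (hz v) M n : AInf p) =
          (shiftSys (hz (R σ *ᵥ v)) M n : AInf p) :=
        (ainfGal_itA σ _ _).trans (congrArg Subtype.val (itA_congr (hgal σ hσ v (n - M)) _))
      rw [← hι, ← e, hzu v, ainfGal_zeta, theta_zeta]
  set φ : (Fin 2 → ℤ_[p]) →+ (Fin 2 → ℤ_[p]) := AddMonoidHom.mk' ι hιadd
  refine ⟨fun v => perTwo hs B₀ (ι v), fun v v' => ?_, fun a v => ?_, fun σ hσ v => ?_, ?_⟩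
  · show perTwo hs B₀ (ι (v + v')) = _
    rw [hιadd, perTwo_add]
  · show perTwo hs B₀ (φ (a • v)) = _
    rw [map_smul_of_add, perTwo_smul]
    rfl
  · show σ • perTwo hs B₀ (ι v) = perTwo hs B₀ (ι (R σ *ᵥ v))
    rw [smul_perTwo, hιgal σ hσ]
  -- some image is nonzero
  obtain ⟨v, hv⟩ := hne
  have hιv : ι v ≠ 0 := fun h0 => hv (funext fun n => by
    rw [← coe_shiftSys_add (hz v) M n, hzu v, h0, zeta_zero]
    rfl)
  obtain ⟨k, w, hw, hwne⟩ := exists_primitive B₀ hιv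
  refine ⟨v, ?_⟩
  show thetaPlus p (perTwo hs B₀ (ι v)) ≠ 0
  rw [hw, perTwo_smul, map_mul, thetaPlus_qpHom]
  exact mul_ne_zero ((map_ne_zero (algebraMap ℚ_[p] Cp)).2
    (by simpa using pow_ne_zero k (Nat.cast_ne_zero.2 hp.out.ne_zero : (p : ℚ_[p]) ≠ 0)))
    (thetaPlus_perTwo_ne_zero hs B₀ hwne)

end FA.EDR
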